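/-
Project MW (S17), leaf [RRK] (Riemann–Roch with duality), part 1 (helper25): REDUCED BASES of a
`B`-LATTICE.  Prefix `rrk_`.  Imports Mathlib + S20/Reduced/Minima (helper3's Dedekind–Weber theory
for the pair `(B, B_∞)`, `B = dw_B K x` the functions regular at the finite places of `x`).

`Λ ⊆ F` is a `K`-subspace stable under multiplication by `B` ("a `B`-lattice").  A basis `b` of
`F / K(x)` contained in `Λ` is `Λ`-REDUCED if no member can be replaced by an element of `Λ` of
smaller degree at infinity.  For such a basis (the proofs are helper3's, with `B` replaced by `Λ`):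

* `rrk_Reduced.mem_iff`      (R1): `f ∈ Λ ↔` all coordinates of `f` are polynomials in `x`;
* `rrk_Reduced.mem_Binf_iff` (R2): `f ∈ x^{-m} B_∞ ↔` the `i`-th coordinate lies in
                                    `x^{-(m + a_i)} B_∞`, `a_i = dw_deg (b i)`;
* `rrk_exists_reduced_basis`            : existence, if `Λ` contains a basis and the degrees of its nonzero
                                    elements are bounded below.
-/
import Mathlib
import Fermat.Agent.S20.Reduced.Minima

set_option autoImplicit false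

namespace Fermat.Agent.MW

open AlgebraicCurve IntermediateField Polynomial Module Fermat.Agent.S24 Fermat.Agent.S20

universe u v
variable {K : Type u} {F : Type v} [Field K] [Field F] [Algebra K F]

/-- A `Λ`-reduced basis of `F` over `K(x)`. -/
structure rrk_Reduced (x : F) (Λ : Submodule K F) {n : ℕ} (b : Basis (Fin n) K⟮x⟯ F) : Prop where
  mem : ∀ i, b i ∈ Λ
  min : ∀ g ∈ Λ, ∀ j, b.repr g j ≠ 0 → dw_deg K x (b j) ≤ dw_deg K x g

section
variable [IsAlgClosed K] [CharZero K] {x : F} (hx : Transcendental K x) [FiniteDimensional K⟮x⟯ F]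
  {Λ : Submodule K F} (hΛ : ∀ g ∈ dw_B K x, ∀ f ∈ Λ, g * f ∈ Λ)

include hx in
/-- **Existence of `Λ`-reduced bases.** -/
theorem rrk_exists_reduced_basis
    (hbasis : ∃ b : Basis (Fin (finrank K⟮x⟯ F)) K⟮x⟯ F, ∀ i, b i ∈ Λ)
    (d₀ : ℤ) (hd₀ : ∀ g ∈ Λ, g ≠ 0 → d₀ ≤ dw_deg K x g) :
    ∃ b : Basis (Fin (finrank K⟮x⟯ F)) K⟮x⟯ F, rrk_Reduced x Λ b := by
  classical
  obtain ⟨b₀, hb₀⟩ := hbasis
  have hex : ∃ s : ℕ, ∃ b : Basis (Fin (finrank K⟮x⟯ F)) K⟮x⟯ F,
      (∀ i, b i ∈ Λ) ∧ ∑ i, (dw_deg K x (b i) - d₀).toNat = s := ⟨_, b₀, hb₀, rfl⟩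
  obtain ⟨b, hb, hs⟩ := Nat.find_spec hex
  have hmin := fun s' (h : s' < Nat.find hex) => Nat.find_min hex h
  refine ⟨b, hb, ?_⟩
  intro g hg j hj
  by_contra hlt
  push Not at hlt
  have hg0 : g ≠ 0 := by
    rintro rfl
    simp at hj
  have hdeg0 := hd₀ g hg hg0
  obtain ⟨b', hb'⟩ := dw_exists_basis_update b j g hj
  have hmem' : ∀ i, b' i ∈ Λ := by
    intro i
    rw [hb']
    by_cases hij : i = j
    · subst hij; simpa using hg
    · simpa [Function.update_of_ne hij] using hb i
  have hsum : ∑ i, (dw_deg K x (b' i) - d₀).toNat < ∑ i, (dw_deg K x (b i) - d₀).toNat := by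
    apply Finset.sum_lt_sum
    · intro i _
      rw [hb']
      by_cases hij : i = j
      · subst hij
        simp only [Function.update_self]
        omega
      · simp [Function.update_of_ne hij]
    · refine ⟨j, Finset.mem_univ _, ?_⟩
      rw [hb']
      simp only [Function.update_self]
      omega
  rw [hs] at hsum
  exact hmin _ hsum ⟨b', hmem', rfl⟩

variable {n : ℕ} {b : Basis (Fin n) K⟮x⟯ F} (hb : rrk_Reduced x Λ b)

include hx hb hΛ in
/-- **(R1)** Coordinates of elements of `Λ` are polynomials. -/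
theorem rrk_Reduced.repr_mem_B {f : F} (hf : f ∈ Λ) (i : Fin n) :
    ((b.repr f i : K⟮x⟯) : F) ∈ dw_B K x := by
  classical
  choose p hp using fun i => dw_exists_poly_sub_mem' hx (b.repr f i).2
  -- the proper-fraction parts
  set r : Fin n → K⟮x⟯ := fun i => b.repr f i - ⟨aeval x (p i), dw_aeval_mem_adjoin (p i)⟩ with hr
  have hrcoe : ∀ i, ((r i : K⟮x⟯) : F) = (b.repr f i : F) - aeval x (p i) := fun i => rfl
  set f' : F := ∑ i, ((r i : K⟮x⟯) : F) * b i with hf'
  have hf'B : f' ∈ Λ := by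
    have : f' = f - ∑ i, aeval x (p i) * b i := by
      rw [hf', ← dw_sum_repr b f, ← Finset.sum_sub_distrib]
      refine Finset.sum_congr rfl fun i _ => ?_
      rw [hrcoe, sub_mul]
    rw [this]
    exact Λ.sub_mem hf (Λ.sum_mem fun i _ => hΛ _ (dw_aeval_mem_B _) _ (hb.mem i))
  have hrepr : ∀ i, b.repr f' i = r i := fun i => dw_repr_sum b r i
  have hall : ∀ i, r i = 0 := by
    by_contra hne
    push Not at hne
    have hS : (Finset.univ.filter fun i => r i ≠ 0).Nonempty := by
      obtain ⟨i, hi⟩ := hne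
      exact ⟨i, by simp [hi]⟩
    obtain ⟨j, hjS, hjmax⟩ := Finset.exists_max_image _ (fun i => dw_deg K x (b i)) hS
    simp only [Finset.mem_filter, Finset.mem_univ, true_and] at hjS hjmax
    have hf'0 : f' ≠ 0 := by
      intro h0
      have := hrepr j
      rw [h0] at this
      simp at this
      exact hjS this.symm
    have h1 := hb.min f' hf'B j (by rw [hrepr]; exact hjS)
    have h2 : f' ∈ dw_Binf K x (-(dw_deg K x (b j) - 1)) := by
      refine (dw_Binf K x _).sum_mem fun i _ => ?_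
      by_cases hi : r i = 0
      · rw [hi]; simp
      · have h4 : ((r i : K⟮x⟯) : F) ∈ dw_Binf K x 1 := by rw [hrcoe]; exact hp i
        have h3 := dw_mul_mem_Binf (dw_x_ne_zero hx) h4 (dw_basis_mem_Binf hx b i)
        exact dw_Binf_anti x (by have := hjmax i hi; omega) h3
    have := (dw_deg_le_iff hx hf'0).mpr h2
    omega
  have : (b.repr f i : F) = aeval x (p i) := by
    have := hall i
    rw [hr] at this
    have h2 := congrArg (fun t : K⟮x⟯ => (t : F)) this
    simp only [AddSubgroupClass.coe_sub, ZeroMemClass.coe_zero] at h2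
    exact sub_eq_zero.mp h2
  rw [this]
  exact dw_aeval_mem_B _

include hx hb hΛ in
/-- **(R2)** Coordinates of functions in `x ^ (-m) B_∞`. -/
theorem rrk_Reduced.repr_mem_Binf {f : F} {m : ℤ} (hf : f ∈ dw_Binf K x m) (i₀ : Fin n) :
    ((b.repr f i₀ : K⟮x⟯) : F) ∈ dw_Binf K x (m + dw_deg K x (b i₀)) := by
  classical
  have hx0 := dw_x_ne_zero hx
  by_contra hi₀
  set c : Fin n → K⟮x⟯ := fun i => b.repr f i with hc
  set a : Fin n → ℤ := fun i => dw_deg K x (b i) with ha
  -- the weights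
  set e : Fin n → ℤ := fun i => dw_deg K x ((c i : K⟮x⟯) : F) + a i with he
  have hci₀ : c i₀ ≠ 0 := by
    intro h0
    apply hi₀
    change ((c i₀ : K⟮x⟯) : F) ∈ _
    rw [h0]
    exact Submodule.zero_mem _
  have hcoe0 : ∀ i, c i ≠ 0 → ((c i : K⟮x⟯) : F) ≠ 0 := fun i hi h0 => hi (Subtype.ext h0)
  have hS : (Finset.univ.filter fun i => c i ≠ 0).Nonempty := ⟨i₀, by simp [hci₀]⟩
  obtain ⟨i₁, hi₁S, hi₁max⟩ := Finset.exists_max_image _ e hS
  simp only [Finset.mem_filter, Finset.mem_univ, true_and] at hi₁S hi₁max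
  set M := e i₁ with hM
  have hMm : 1 - M ≤ m := by
    have h1 : ¬ dw_deg K x ((c i₀ : K⟮x⟯) : F) ≤ -(m + a i₀) := by
      rw [dw_deg_le_iff hx (hcoe0 _ hci₀), neg_neg]
      exact hi₀
    have h2 := hi₁max i₀ hci₀
    simp only [he] at h2 hM
    omega
  have hfM : f ∈ dw_Binf K x (1 - M) := dw_Binf_anti x hMm hf
  -- the set of indices of maximal weight
  set I := Finset.univ.filter fun i => c i ≠ 0 ∧ e i = M with hI
  have hIne : I.Nonempty := ⟨i₁, by simp [hI, hi₁S, hM]⟩
  obtain ⟨j, hjI, hjmax⟩ := Finset.exists_max_image _ a hIne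
  simp only [hI, Finset.mem_filter, Finset.mem_univ, true_and] at hjI hjmax
  -- leading coefficients
  have hlead : ∀ i, ∃ l : K, c i ≠ 0 → l ≠ 0 ∧
      ((c i : K⟮x⟯) : F) - algebraMap K F l * x ^ (dw_deg K x ((c i : K⟮x⟯) : F)) ∈
        dw_Binf K x (-(dw_deg K x ((c i : K⟮x⟯) : F) - 1)) := by
    intro i
    by_cases hi : c i = 0
    · exact ⟨0, fun h => (h hi).elim⟩
    · obtain ⟨d, hd⟩ := dw_exists_unitInf (c i).2 (hcoe0 i hi)
      have hdeg := dw_deg_eq_of_unitInf hx hd
      obtain ⟨l, hl0, hl⟩ := dw_exists_leading hx (c i).2 hd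
      exact ⟨l, fun _ => ⟨hl0, by rw [hdeg]; exact hl⟩⟩
  choose lam hlam using hlead
  -- the remainders
  set t : Fin n → F := fun i =>
    if i ∈ I then ((c i : K⟮x⟯) : F) - algebraMap K F (lam i) * x ^ (M - a i)
    else ((c i : K⟮x⟯) : F) with ht
  have htmem : ∀ i, t i * b i ∈ dw_Binf K x (1 - M) := by
    intro i
    by_cases hiI : i ∈ I
    · have hiI' : c i ≠ 0 ∧ e i = M := by simpa [hI] using hiI
      have hdi : dw_deg K x ((c i : K⟮x⟯) : F) = M - a i := by
        have := hiI'.2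
        simp only [he] at this
        omega
      have h1 := (hlam i hiI'.1).2
      rw [hdi] at h1
      have h2 := dw_mul_mem_Binf hx0 h1 (dw_basis_mem_Binf hx b i)
      simp only [ht, if_pos hiI]
      convert h2 using 2
      simp only [ha]
      ring
    · simp only [ht, if_neg hiI]
      by_cases hi : c i = 0
      · rw [hi]; simp
      · have h1 : e i ≠ M := fun h => hiI (by simp [hI, hi, h])
        have h2 := hi₁max i hi
        have h3 := dw_mul_mem_Binf hx0 (dw_mem_Binf_deg hx (hcoe0 i hi)) (dw_basis_mem_Binf hx b i)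
        refine dw_Binf_anti x ?_ h3
        simp only [he, ha] at h1 h2 hM ⊢
        omega
  -- the competitor
  set μ : Fin n → K⟮x⟯ := fun i =>
    if i ∈ I then algebraMap K K⟮x⟯ (lam i) * (AdjoinSimple.gen K x) ^ (a j - a i).toNat
    else 0 with hμ
  set g : F := ∑ i, ((μ i : K⟮x⟯) : F) * b i with hg
  have hμcoe : ∀ i, ((μ i : K⟮x⟯) : F) = x ^ (a j - M) * (((c i : K⟮x⟯) : F) - t i) := by
    intro i
    by_cases hiI : i ∈ I
    · have hiI' : c i ≠ 0 ∧ e i = M := by simpa [hI] using hiI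
      have haij : a i ≤ a j := hjmax i hiI'
      simp only [hμ, ht, if_pos hiI]
      rw [sub_sub_cancel]
      push_cast [AdjoinSimple.coe_gen]
      have : x ^ (a j - a i).toNat = x ^ (a j - M) * x ^ (M - a i) := by
        rw [← zpow_natCast, ← zpow_add₀ hx0]
        congr 1
        omega
      rw [this]
      ring
    · simp only [hμ, ht, if_neg hiI]
      simp
  have hgB : g ∈ Λ := by
    refine Λ.sum_mem fun i _ => hΛ _ ?_ _ (hb.mem i)
    by_cases hiI : i ∈ I
    · simp only [hμ, if_pos hiI]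
      push_cast
      exact (dw_B K x).mul_mem ((dw_B K x).algebraMap_mem _)
        ((dw_B K x).pow_mem (fun v hv => hv) _)
    · simp only [hμ, if_neg hiI]
      simp
  have hgj : b.repr g j ≠ 0 := by
    rw [hg, dw_repr_sum b μ j]
    have hjI' : j ∈ I := by simp [hI, hjI]
    simp only [hμ, if_pos hjI']
    have hl := (hlam j hjI.1).1
    simp only [sub_self, Int.toNat_zero, pow_zero, mul_one, ne_eq,
      FaithfulSMul.algebraMap_eq_zero_iff]
    exact hl
  have hg0 : g ≠ 0 := by
    rintro h0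
    rw [h0] at hgj
    simp at hgj
  have hgmem : g ∈ dw_Binf K x (1 - a j) := by
    have h1 : g = x ^ (a j - M) * (f - ∑ i, t i * b i) := by
      rw [hg, ← dw_sum_repr b f, ← Finset.sum_sub_distrib, Finset.mul_sum]
      refine Finset.sum_congr rfl fun i _ => ?_
      rw [hμcoe i]
      simp only [hc]
      ring
    rw [h1, mul_comm, dw_mul_zpow_mem_Binf hx0]
    have h2 : 1 - a j + (a j - M) = 1 - M := by ring
    rw [h2]
    exact (dw_Binf K x _).sub_mem hfM ((dw_Binf K x _).sum_mem fun i _ => htmem i)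
  have h1 := hb.min g hgB j hgj
  have h2 : dw_deg K x g ≤ a j - 1 := by
    rw [dw_deg_le_iff hx hg0]
    convert hgmem using 2
    ring
  simp only [ha] at h2
  omega

include hx hb hΛ in
/-- **(R1)** as an equivalence. -/
theorem rrk_Reduced.mem_iff {f : F} :
    f ∈ Λ ↔ ∀ i, ((b.repr f i : K⟮x⟯) : F) ∈ dw_B K x := by
  refine ⟨fun hf i => hb.repr_mem_B hx hΛ hf i, fun h => ?_⟩
  rw [← dw_sum_repr b f]
  exact Λ.sum_mem fun i _ => hΛ _ (h i) _ (hb.mem i)

include hx hb hΛ in
/-- **(R2)** as an equivalence. -/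
theorem rrk_Reduced.mem_Binf_iff {f : F} {m : ℤ} :
    f ∈ dw_Binf K x m ↔
      ∀ i, ((b.repr f i : K⟮x⟯) : F) ∈ dw_Binf K x (m + dw_deg K x (b i)) := by
  refine ⟨fun hf i => hb.repr_mem_Binf hx hΛ hf i, fun h => ?_⟩
  rw [← dw_sum_repr b f]
  refine (dw_Binf K x m).sum_mem fun i _ => ?_
  have := dw_mul_mem_Binf (dw_x_ne_zero hx) (h i) (dw_basis_mem_Binf hx b i)
  rwa [add_neg_cancel_right] at this

end

end Fermat.Agent.MW
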