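/-
Project MW (S17), leaf [RRK] (Riemann–Roch with duality), part 2 (helper25): THE LATTICE OF THE
FINITE PART OF A DIVISOR.  Prefix `rrk_`.

`rrk_I K x D = {f | ord_v f ≥ -D(v) at all places v where x is regular}` (a fractional ideal of
`B = dw_B K x`).  It is a `B`-lattice, it contains a `K(x)`-basis of `F`, the degrees at infinity of
its nonzero elements are bounded below; hence it has a reduced basis (`rrk_I_exists_reduced`), and
`dim_K (I_D ∩ x^r B_∞) = ∑ (r - a_i + 1)⁺` (`rrk_finrank_inf`).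
-/
import Mathlib
import Fermat.Agent.MW.RRK.Reduced
import Fermat.Agent.S20.Reduced.Dim
import Fermat.Agent.JT3.Riemann.Main

set_option autoImplicit false
set_option linter.unusedSectionVars false

namespace Fermat.Agent.MW

open AlgebraicCurve IntermediateField Polynomial Module WithZero
open Fermat.Agent.S24 Fermat.Agent.S20 Fermat.Agent.JT3

universe u v
variable {K : Type u} {F : Type v} [Field K] [Field F] [Algebra K F]

/-- the lattice of the finite part of `D`: `ord_v f ≥ -D v` at all places where `x` is regular -/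
def rrk_I (K : Type u) {F : Type v} [Field K] [Field F] [Algebra K F] (x : F) (D : Divisor K F) :
    Submodule K F where
  carrier := {f | ∀ v : Place K F, x ∈ v.toValuationSubring → v.adicValuation f ≤ exp (D v)}
  zero_mem' := by
    intro v _
    simp
  add_mem' := by
    intro f g hf hg v hv
    exact (Valuation.map_add _ _ _).trans (max_le (hf v hv) (hg v hv))
  smul_mem' := by
    intro c f hf v hv
    show v.adicValuation (c • f) ≤ exp (D v)
    rw [Algebra.smul_def, map_mul]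
    exact (mul_le_of_le_one_left' (v.adicValuation_algebraMap_le_one c)).trans (hf v hv)

theorem rrk_mem_I_iff {x f : F} {D : Divisor K F} :
    f ∈ rrk_I K x D ↔
      ∀ v : Place K F, x ∈ v.toValuationSubring → f = 0 ∨ -D v ≤ v.ord f := by
  show (∀ v : Place K F, x ∈ v.toValuationSubring → v.adicValuation f ≤ exp (D v)) ↔ _
  exact forall_congr' fun v => imp_congr_right fun _ => v.adicValuation_le_exp_iff

theorem rrk_mem_I_iff_ord {x f : F} {D : Divisor K F} (hf : f ≠ 0) :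
    f ∈ rrk_I K x D ↔ ∀ v : Place K F, x ∈ v.toValuationSubring → -D v ≤ v.ord f := by
  rw [rrk_mem_I_iff]
  exact forall_congr' fun v => imp_congr_right fun _ => or_iff_right hf

/-- `I_D` is a `B`-module -/
theorem rrk_I_mul_mem {x : F} {D : Divisor K F} :
    ∀ g ∈ dw_B K x, ∀ f ∈ rrk_I K x D, g * f ∈ rrk_I K x D := by
  intro g hg f hf v hv
  rw [map_mul]
  exact (mul_le_of_le_one_left' (v.adicValuation_le_one_of_mem (hg v hv))).trans (hf v hv)

theorem rrk_I_mono {x : F} {D D' : Divisor K F} (h : D ≤ D') : rrk_I K x D ≤ rrk_I K x D' :=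
  fun _ hf v hv => (hf v hv).trans (exp_le_exp.mpr (Finsupp.le_def.mp h v))

section
variable [IsAlgClosed K] [CharZero K] {x : F} (hx : Transcendental K x) [FiniteDimensional K⟮x⟯ F]

include hx in
/-- a nonzero element of `I_D` which multiplies `B` into `I_D` -/
theorem rrk_exists_mem_I (D : Divisor K F) :
    ∃ g : F, g ≠ 0 ∧ ∀ v : Place K F, x ∈ v.toValuationSubring → -D v ≤ v.ord g := by
  classical
  have hsep : rt_IsSepGen K x := rt_isSepGen_of_charZero hx
  obtain ⟨u, hu0, hu⟩ := rt_exists_ord_eq hsep D.support (fun v => max (-D v) 0)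
  obtain ⟨p, hp0, hp⟩ := dw_exists_mul_mem_B (K := K) (x := x) u
  have hg0 : aeval x p * u ≠ 0 := mul_ne_zero hp0 hu0
  refine ⟨aeval x p * u, hg0, fun v hv => ?_⟩
  have hpv : 0 ≤ v.ord (aeval x p) := (hw_mem_iff_ord_nonneg v hp0).mp (dr_aeval_mem v hv p)
  by_cases hvs : v ∈ D.support
  · rw [v.ord_mul hp0 hu0, hu v hvs]
    have := le_max_left (-D v) 0
    omega
  · have h0 : D v = 0 := Finsupp.notMem_support_iff.mp hvs
    rw [h0, neg_zero]
    exact (hw_mem_iff_ord_nonneg v hg0).mp (hp v hv)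

include hx in
/-- `I_D` contains a basis of `F` over `K(x)` -/
theorem rrk_I_exists_basis (D : Divisor K F) :
    ∃ b : Basis (Fin (finrank K⟮x⟯ F)) K⟮x⟯ F, ∀ i, b i ∈ rrk_I K x D := by
  obtain ⟨g, hg0, hg⟩ := rrk_exists_mem_I hx D
  obtain ⟨b₀, hb₀⟩ := dw_exists_basis_mem_B (K := K) (x := x)
  let e : F ≃ₗ[K⟮x⟯] F := LinearEquiv.ofLinear (LinearMap.mulLeft K⟮x⟯ g)
    (LinearMap.mulLeft K⟮x⟯ g⁻¹)
    (by ext f; simp [hg0]) (by ext f; simp [hg0])
  refine ⟨b₀.map e, fun i => ?_⟩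
  rw [Basis.map_apply]
  show g * b₀ i ∈ rrk_I K x D
  rw [mul_comm]
  refine rrk_I_mul_mem _ (hb₀ i) _ ?_
  rw [rrk_mem_I_iff_ord hg0]
  exact hg

include hx in
/-- the degrees at infinity of the nonzero elements of `I_D` are bounded below -/
theorem rrk_I_deg_bound (D : Divisor K F) :
    ∃ d₀ : ℤ, ∀ f ∈ rrk_I K x D, f ≠ 0 → d₀ ≤ dw_deg K x f := by
  obtain ⟨h, hh0, hh⟩ := rrk_exists_mem_I hx (-D)
  refine ⟨-dw_deg K x h, fun f hf hf0 => ?_⟩
  have hx0 := dw_x_ne_zero hx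
  have hhf0 : h * f ≠ 0 := mul_ne_zero hh0 hf0
  have hB : h * f ∈ dw_B K x := by
    rw [dw_mem_B_iff_ord hx0 hhf0]
    intro v hv
    have hv' : x ∈ v.toValuationSubring := (hw_mem_iff_ord_nonneg v hx0).mpr hv
    have h1 := hh v hv'
    have h2 := (rrk_mem_I_iff_ord hf0).mp hf v hv'
    rw [v.ord_mul hh0 hf0]
    rw [Finsupp.neg_apply, neg_neg] at h1
    omega
  have h1 := dw_deg_nonneg_of_mem_B hx hB hhf0
  have h2 : dw_deg K x (h * f) ≤ dw_deg K x h + dw_deg K x f := by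
    rw [dw_deg_le_iff hx hhf0, neg_add]
    exact dw_mul_mem_Binf hx0 (dw_mem_Binf_deg hx hh0) (dw_mem_Binf_deg hx hf0)
  omega

include hx in
/-- **`I_D` has a reduced basis.** -/
theorem rrk_I_exists_reduced (D : Divisor K F) :
    ∃ b : Basis (Fin (finrank K⟮x⟯ F)) K⟮x⟯ F, rrk_Reduced x (rrk_I K x D) b := by
  obtain ⟨d₀, hd₀⟩ := rrk_I_deg_bound hx D
  exact rrk_exists_reduced_basis hx (rrk_I_exists_basis hx D) d₀ hd₀

/-! ### the count -/

variable {Λ : Submodule K F} (hΛ : ∀ g ∈ dw_B K x, ∀ f ∈ Λ, g * f ∈ Λ)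
  {n : ℕ} {b : Basis (Fin n) K⟮x⟯ F} (hb : rrk_Reduced x Λ b)

include hx hΛ hb in
/-- **(D1)** `dim_K (Λ ∩ x^r B_∞) = ∑ (r - a i + 1)⁺` for every `r : ℤ` -/
theorem rrk_finrank_inf (r : ℤ) :
    FiniteDimensional K ↥(Λ ⊓ dw_Binf K x (-r)) ∧
      Module.finrank K ↥(Λ ⊓ dw_Binf K x (-r)) = ∑ i, (r - dw_deg K x (b i) + 1).toNat := by
  refine dd_finrank_graded hx b (fun i => (r - dw_deg K x (b i) + 1).toNat) _ fun f => ?_
  rw [Submodule.mem_inf, hb.mem_iff hx hΛ, hb.mem_Binf_iff hx hΛ]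
  have key : ∀ i, ((b.repr f i : K⟮x⟯) : F) ∈
      dr_polyLT (K := K) x (r - dw_deg K x (b i) + 1).toNat ↔
      ((b.repr f i : K⟮x⟯) : F) ∈ dw_B K x ∧
      ((b.repr f i : K⟮x⟯) : F) ∈ dw_Binf K x (-r + dw_deg K x (b i)) := by
    intro i
    rw [dr_mem_polyLT_iff_regular x hx (b.repr f i).2 (r - dw_deg K x (b i))]
    have hx0 := dw_x_ne_zero hx
    refine and_congr Iff.rfl ?_
    rw [dw_mem_Binf]
    refine forall_congr' fun v => ?_
    rw [dw_not_mem_iff_ord_neg v hx0]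
    have : -(r - dw_deg K x (b i)) = -r + dw_deg K x (b i) := by ring
    rw [this]
  constructor
  · rintro ⟨h1, h2⟩ i
    exact (key i).mpr ⟨h1 i, h2 i⟩
  · intro h
    exact ⟨fun i => ((key i).mp (h i)).1, fun i => ((key i).mp (h i)).2⟩

end

end Fermat.Agent.MW
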