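/-
Project MW (S17), leaf [RRK] (Riemann–Roch with duality), part 3 (helper25): THE TRACE DUAL of a
`B`-lattice with a reduced basis.  Prefix `rrk_`.

`Λ^∨ = rrk_dual K x Λ = {h | Tr(h Λ) ⊆ B}`.  For a `Λ`-reduced basis `b` with exponents
`a_i = dw_deg (b i)` and trace-dual basis `b^*`:

* `rrk_mem_dual_iff`  : `h ∈ Λ^∨ ↔ ∀ i, Tr (h b_i) ∈ B` (the coordinates of `h` w.r.t. `b^*` are
                         polynomials);
* `rrk_mem_Binfd_iff` : `h ∈ x^{-m} B_∞^∨ ↔ ∀ i, Tr (h b_i) ∈ x^{-(m - a_i)} B_∞`;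
* `rrk_finrank_dual`  : `dim_K (Λ^∨ ∩ x^{-m} B_∞^∨) = ∑ (a_i - m + 1)⁺`;
* `rrk_Bd_eq_Cfin`, `rrk_Binfd_eq_Cinf` : the tame different (helper3's (b1)–(b4)) as equalities
                         `B^∨ = C`, `x^{-m} B_∞^∨ = x^{-m} C_∞`;
* `rrk_exists_exact`  : (Riemann) an element of `I_D` of exact order `-D(v)` at a finite place `v`;
* `rrk_mem_dual_I_iff`: `h ∈ (I_D)^∨ ↔ ord_v h ≥ D(v) + 1 - e_v` at all finite places.
-/
import Mathlib
import Fermat.Agent.MW.RRK.IdealLat
import Fermat.Agent.S20.Reduced.DimDual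
import Fermat.Agent.S20.Count.BranchInf

set_option autoImplicit false
set_option linter.unusedSectionVars false

namespace Fermat.Agent.MW

open AlgebraicCurve IntermediateField Polynomial Module WithZero
open Fermat.Agent.S24 Fermat.Agent.S20 Fermat.Agent.JT3

universe u v
variable {K : Type u} {F : Type v} [Field K] [Field F] [Algebra K F]

/-- the trace dual of a lattice: `{h | Tr(h Λ) ⊆ B}` -/
def rrk_dual (K : Type u) {F : Type v} [Field K] [Field F] [Algebra K F] (x : F)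
    (Λ : Submodule K F) : Submodule K F where
  carrier := {h | ∀ f ∈ Λ, dw_tr K x (h * f) ∈ dw_B K x}
  add_mem' := fun {a b} ha hb f hf => by
    rw [add_mul, map_add]
    exact (dw_B K x).add_mem (ha f hf) (hb f hf)
  zero_mem' := fun f _ => by
    rw [zero_mul, map_zero]
    exact (dw_B K x).zero_mem
  smul_mem' := fun c h hh f hf => by
    rw [smul_mul_assoc, map_smul]
    exact (dw_B K x).smul_mem (hh f hf) c

theorem rrk_mem_dual {x h : F} {Λ : Submodule K F} :
    h ∈ rrk_dual K x Λ ↔ ∀ f ∈ Λ, dw_tr K x (h * f) ∈ dw_B K x := Iff.rfl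

section
variable [IsAlgClosed K] [CharZero K] {x : F} (hx : Transcendental K x) [FiniteDimensional K⟮x⟯ F]

section reduced

variable {Λ : Submodule K F} (hΛ : ∀ g ∈ dw_B K x, ∀ f ∈ Λ, g * f ∈ Λ)
  {n : ℕ} {b : Basis (Fin n) K⟮x⟯ F} (hb : rrk_Reduced x Λ b)

include hx hΛ hb in
/-- **(R1) for the dual basis** -/
theorem rrk_mem_dual_iff {h : F} :
    h ∈ rrk_dual K x Λ ↔ ∀ i, dw_tr K x (h * b i) ∈ dw_B K x := by
  constructor
  · intro hh i
    exact hh (b i) (hb.mem i)
  · intro hh f hf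
    rw [dw_tr_mul_eq_sum x b h f]
    exact (dw_B K x).sum_mem fun j _ => (dw_B K x).mul_mem (hb.repr_mem_B hx hΛ hf j) (hh j)

include hx hΛ hb in
/-- **(R2) for the dual basis**, with exponents `- a i` -/
theorem rrk_mem_Binfd_iff {m : ℤ} {h : F} :
    h ∈ dw_Binfd K x m ↔ ∀ i, dw_tr K x (h * b i) ∈ dw_Binf K x (m - dw_deg K x (b i)) := by
  have hx0 := dw_x_ne_zero hx
  constructor
  · intro hh i
    -- test function `b i * x ^ (-a i)`
    have hf : b i * x ^ (-dw_deg K x (b i)) ∈ dw_Binf K x 0 := by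
      rw [dw_mul_zpow_mem_Binf hx0, zero_add]
      exact dw_basis_mem_Binf hx b i
    have h1 := hh _ hf
    let c : K⟮x⟯ := (AdjoinSimple.gen K x) ^ (-dw_deg K x (b i))
    have hc : (c : F) = x ^ (-dw_deg K x (b i)) := by
      have := map_zpow₀ (algebraMap K⟮x⟯ F) (AdjoinSimple.gen K x) (-dw_deg K x (b i))
      rw [IntermediateField.algebraMap_apply, IntermediateField.algebraMap_apply,
        AdjoinSimple.coe_gen] at this
      exact this
    have h2 : h * (b i * x ^ (-dw_deg K x (b i))) = (c : F) * (h * b i) := by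
      rw [hc]
      ring
    rw [h2, dw_tr_smul, hc, mul_comm, dw_mul_zpow_mem_Binf hx0] at h1
    rwa [sub_eq_add_neg]
  · intro hh f hf
    rw [dw_tr_mul_eq_sum x b h f]
    refine (dw_Binf K x m).sum_mem fun j _ => ?_
    have h1 := hb.repr_mem_Binf hx hΛ hf j
    have := dw_mul_mem_Binf hx0 h1 (hh j)
    have he : 0 + dw_deg K x (b j) + (m - dw_deg K x (b j)) = m := by ring
    rwa [he] at this

include hx hΛ hb in
/-- **(D3)** `dim_K (Λ^∨ ∩ x^{-m} B_∞^∨) = ∑ (a i - m + 1)⁺` -/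
theorem rrk_finrank_dual (m : ℤ) :
    FiniteDimensional K ↥(rrk_dual K x Λ ⊓ dw_Binfd K x m) ∧
      Module.finrank K ↥(rrk_dual K x Λ ⊓ dw_Binfd K x m) =
        ∑ i, (dw_deg K x (b i) - m + 1).toNat := by
  classical
  refine dd_finrank_graded hx (dd_dualBasis x b) (fun i => (dw_deg K x (b i) - m + 1).toNat) _
    fun f => ?_
  rw [Submodule.mem_inf, rrk_mem_dual_iff hx hΛ hb, rrk_mem_Binfd_iff hx hΛ hb]
  have key : ∀ i, (((dd_dualBasis x b).repr f i : K⟮x⟯) : F) ∈
      dr_polyLT (K := K) x (dw_deg K x (b i) - m + 1).toNat ↔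
      dw_tr K x (f * b i) ∈ dw_B K x ∧
      dw_tr K x (f * b i) ∈ dw_Binf K x (m - dw_deg K x (b i)) := by
    intro i
    rw [dr_mem_polyLT_iff_regular x hx ((dd_dualBasis x b).repr f i).2 (dw_deg K x (b i) - m),
      dd_dualBasis_repr_coe]
    have hx0 := dw_x_ne_zero hx
    refine and_congr Iff.rfl ?_
    rw [dw_mem_Binf]
    refine forall_congr' fun v => ?_
    rw [dw_not_mem_iff_ord_neg v hx0]
    have : -(dw_deg K x (b i) - m) = m - dw_deg K x (b i) := by ring
    rw [this]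
  constructor
  · rintro ⟨h1, h2⟩ i
    exact (key i).mpr ⟨h1 i, h2 i⟩
  · intro h
    exact ⟨fun i => ((key i).mp (h i)).1, fun i => ((key i).mp (h i)).2⟩

end reduced

/-! ### the tame different as equalities of lattices -/

include hx in
/-- `B^∨ = C` -/
theorem rrk_Bd_eq_Cfin : dw_Bd K x = dw_Cfin K x := by
  refine le_antisymm (fun h hh v c hvc => ?_) (dw_Cfin_le_Bd hx)
  refine dw_fin_tame hx h (fun f hf w hw => ?_) v c hvc
  have hfB : f ∈ dw_B K x := fun u hu =>
    (dw_mem_iff_ord_nonneg u f).mpr (hf u ((dw_mem_iff_ord_nonneg u x).mp hu))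
  have := hh f hfB w ((dw_mem_iff_ord_nonneg w x).mpr hw)
  rw [dw_tr_apply] at this
  exact (dw_mem_iff_ord_nonneg w _).mp this

include hx in
/-- `x^{-m} B_∞^∨ = x^{-m} C_∞` -/
theorem rrk_Binfd_eq_Cinf (m : ℤ) : dw_Binfd K x m = dw_Cinf K x (-m) := by
  have hx0 := dw_x_ne_zero hx
  refine le_antisymm (fun h hh v hv => ?_) ?_
  · rw [neg_neg]
    refine dw_inf_tame hx (h * x ^ m) (fun f hf w hw => ?_) v hv
    have hf0 : f ∈ dw_Binf K x 0 := by
      intro u hu
      rw [zpow_zero, mul_one]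
      exact (dw_mem_iff_ord_nonneg u f).mpr (hf u ((dw_not_mem_iff_ord_neg u hx0).mp hu))
    have h1 := hh f hf0 w ((dw_not_mem_iff_ord_neg w hx0).mpr hw)
    rw [← dw_tr_mul_zpow, dw_tr_apply] at h1
    exact (dw_mem_iff_ord_nonneg w _).mp h1
  · have := dw_Cinf_le_Binfd (K := K) hx (-m)
    rwa [neg_neg] at this

/-! ### elements of exact order, and the dual of `I_D` -/

include hx in
/-- **(Riemann)** an element of `I_D` of exact order `-D(v)` at a finite place `v` -/
theorem rrk_exists_exact (D : Divisor K F) (v : Place K F) (hv : x ∈ v.toValuationSubring) :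
    ∃ f ∈ rrk_I K x D, f ≠ 0 ∧ v.ord f = -D v := by
  classical
  have hsep : rt_IsSepGen K x := rt_isSepGen_of_charZero hx
  have hx0 := dw_x_ne_zero hx
  obtain ⟨g, c, hR⟩ := rt_riemann hsep
  set P := rt_poleDiv hsep x with hP
  have hdegP : Divisor.degree P = (finrank K⟮x⟯ F : ℤ) := rt_degree_poleDiv hsep hx
  have hn : (1 : ℤ) ≤ (finrank K⟮x⟯ F : ℤ) := by
    have : 0 < finrank K⟮x⟯ F := Module.finrank_pos
    omega
  -- `r` large
  obtain ⟨r, hr⟩ : ∃ r : ℕ, c - Divisor.degree D + 1 ≤ (r : ℤ) :=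
    ⟨(c - Divisor.degree D + 1).toNat, Int.self_le_toNat _⟩
  set E₁ : Divisor K F := D + r • P with hE₁
  set E₀ : Divisor K F := E₁ - Finsupp.single v 1 with hE₀
  have hdeg₁ : Divisor.degree E₁ = Divisor.degree D + r * (finrank K⟮x⟯ F : ℤ) := by
    rw [hE₁, map_add, map_nsmul, hdegP, nsmul_eq_mul]
  have hdeg₀ : Divisor.degree E₀ = Divisor.degree E₁ - 1 := by
    rw [hE₀, map_sub, rt_degree_single hsep]
  have hrn : (r : ℤ) ≤ r * (finrank K⟮x⟯ F : ℤ) := by nlinarith [Int.natCast_nonneg r]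
  have hl₁ := (hR E₁).2 (by rw [hdeg₁]; omega)
  have hl₀ := (hR E₀).2 (by rw [hdeg₀, hdeg₁]; omega)
  have hle : riemannRochSpace E₀ ≤ riemannRochSpace E₁ :=
    rt_L_mono (by rw [hE₀]; exact sub_le_self _ (Finsupp.single_nonneg.mpr zero_le_one))
  -- an element of `L(E₁)` not in `L(E₀)`
  obtain ⟨f, hf₁, hf₀⟩ : ∃ f ∈ riemannRochSpace E₁, f ∉ riemannRochSpace E₀ := by
    by_contra hcon
    push Not at hcon
    have heq : riemannRochSpace E₀ = riemannRochSpace E₁ := le_antisymm hle hcon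
    rw [heq] at hl₀
    rw [hdeg₀] at hl₀
    omega
  have hf0 : f ≠ 0 := fun h => hf₀ (h ▸ Submodule.zero_mem _)
  have hPfin : ∀ w : Place K F, x ∈ w.toValuationSubring → P w = 0 := by
    intro w hw
    rw [hP, rt_poleDiv_apply]
    have := (hw_mem_iff_ord_nonneg w hx0).mp hw
    omega
  have h₁ := (rt_mem_L_iff hf0).mp hf₁
  refine ⟨f, ?_, hf0, ?_⟩
  · rw [rrk_mem_I_iff_ord hf0]
    intro w hw
    have := h₁ w
    rw [hE₁, Finsupp.add_apply, Finsupp.smul_apply, hPfin w hw, smul_zero, add_zero] at this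
    exact this
  · have hv₁ := h₁ v
    rw [hE₁, Finsupp.add_apply, Finsupp.smul_apply, hPfin v hv, smul_zero, add_zero] at hv₁
    by_contra hne
    apply hf₀
    rw [rt_mem_L_iff hf0]
    intro w
    by_cases hwv : w = v
    · subst hwv
      rw [hE₀, Finsupp.sub_apply, Finsupp.single_eq_same, hE₁, Finsupp.add_apply,
        Finsupp.smul_apply, hPfin w hv, smul_zero, add_zero]
      omega
    · have := h₁ w
      rw [hE₀, Finsupp.sub_apply, Finsupp.single_eq_of_ne hwv, sub_zero]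
      exact this

include hx in
/-- `(I_D)^∨ = {h | h I_D ⊆ B^∨}` -/
theorem rrk_mem_dual_I_iff_mul (D : Divisor K F) {h : F} :
    h ∈ rrk_dual K x (rrk_I K x D) ↔ ∀ f ∈ rrk_I K x D, h * f ∈ dw_Cfin K x := by
  rw [← rrk_Bd_eq_Cfin hx]
  constructor
  · intro hh f hf g hg
    have := hh (f * g) (by rw [mul_comm]; exact rrk_I_mul_mem g hg f hf)
    rwa [← mul_assoc] at this
  · intro hh f hf
    have := hh f hf 1 (dw_B K x).one_mem
    rwa [mul_one] at this

include hx in
/-- **the dual of `I_D`**: `ord_v h ≥ D(v) + 1 - e_v` at all finite places -/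
theorem rrk_mem_dual_I_iff (D : Divisor K F) {h : F} :
    h ∈ rrk_dual K x (rrk_I K x D) ↔
      ∀ (v : Place K F) (c : K), 0 < v.ord (x - algebraMap K F c) →
        h = 0 ∨ D v + 1 - v.ord (x - algebraMap K F c) ≤ v.ord h := by
  rw [rrk_mem_dual_I_iff_mul hx]
  constructor
  · intro hh v c hvc
    by_cases h0 : h = 0
    · exact Or.inl h0
    right
    have hxv : x ∈ v.toValuationSubring := dw_mem_of_ord_sub_pos v hvc
    obtain ⟨f, hf, hf0, hfv⟩ := rrk_exists_exact hx D v hxv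
    have hne : x - algebraMap K F c ≠ 0 := by
      intro h1; rw [h1] at hvc; simp at hvc
    have h1 := hh f hf v c hvc
    rw [dw_adicValuation_lt_one_iff v (mul_ne_zero (mul_ne_zero h0 hf0) hne),
      v.ord_mul (mul_ne_zero h0 hf0) hne, v.ord_mul h0 hf0, hfv] at h1
    omega
  · intro hh f hf v c hvc
    by_cases h0 : h * f = 0
    · rw [h0, zero_mul, map_zero]
      exact zero_lt_one
    have hh0 : h ≠ 0 := left_ne_zero_of_mul h0
    have hf0 : f ≠ 0 := right_ne_zero_of_mul h0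
    have hxv : x ∈ v.toValuationSubring := dw_mem_of_ord_sub_pos v hvc
    have hne : x - algebraMap K F c ≠ 0 := by
      intro h1; rw [h1] at hvc; simp at hvc
    have h1 := (hh v c hvc).resolve_left hh0
    have h2 := (rrk_mem_I_iff_ord hf0).mp hf v hxv
    rw [dw_adicValuation_lt_one_iff v (mul_ne_zero h0 hne), v.ord_mul h0 hne, v.ord_mul hh0 hf0]
    omega

end

end Fermat.Agent.MW
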