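/-
Project MW (S17), leaf [RRK] (Riemann–Roch with duality), part 4 (helper25): THE CANONICAL DIVISOR
`div(dx)`.  Prefix `rrk_`.  (Riemann–Roch itself: `MW/RRK/RR.lean`.)

`K` algebraically closed of characteristic zero, `F / K` a function field, `x ∈ F` non-constant.
* `rrk_dOrd x v`   : the order of `dx` at `v` (`e_v - 1` at the finite places, `-e_v - 1` at the
                     poles of `x`);
* `rrk_exists_canon` : there is a divisor `𝔇` with `𝔇 v = rrk_dOrd x v` (finitely many ramified
                     places).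
-/
import Mathlib
import Fermat.Agent.MW.RRK.Dual

set_option autoImplicit false
set_option linter.unusedSectionVars false

noncomputable section

namespace Fermat.Agent.MW

open AlgebraicCurve IntermediateField Polynomial Module WithZero
open Fermat.Agent.S24 Fermat.Agent.S20 Fermat.Agent.JT3
open scoped Classical

universe u v
variable {K : Type u} {F : Type v} [Field K] [Field F] [Algebra K F]

/-- the value of `f` at `v` (`0` if `f` has a pole at `v`) -/
def rrk_val (v : Place K F) (f : F) : K :=
  if h : ∃ c : K, f - algebraMap K F c ∈ v.toValuationSubring.nonunits then h.choose else 0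

/-- the order at `v` of the differential `dx` -/
def rrk_dOrd (x : F) (v : Place K F) : ℤ :=
  if 0 ≤ v.ord x then v.ord (x - algebraMap K F (rrk_val v x)) - 1 else v.ord x - 1

section
variable [IsAlgClosed K] [CharZero K] {x : F} (hx : Transcendental K x) [FiniteDimensional K⟮x⟯ F]

include hx in
theorem rrk_sub_ne_zero (c : K) : x - algebraMap K F c ≠ 0 := by
  intro h
  apply hx
  rw [sub_eq_zero.mp h]
  exact isAlgebraic_algebraMap c

include hx in
/-- at a finite place, `x - x(v)` has positive order -/
theorem rrk_val_spec (v : Place K F) (hv : 0 ≤ v.ord x) :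
    0 < v.ord (x - algebraMap K F (rrk_val v x)) := by
  have hx0 := dw_x_ne_zero hx
  have hxv : x ∈ v.toValuationSubring := (hw_mem_iff_ord_nonneg v hx0).mpr hv
  have hex : ∃ c : K, x - algebraMap K F c ∈ v.toValuationSubring.nonunits := by
    obtain ⟨c, hc | hc⟩ := hw_exists_const x v hxv
    · exact absurd (hc ▸ isAlgebraic_algebraMap c) hx
    · refine ⟨c, ?_⟩
      rw [ValuationSubring.mem_nonunits_iff, dw_valuation_lt_one_iff v (rrk_sub_ne_zero hx c)]
      exact hc
  rw [rrk_val, dif_pos hex]
  have := hex.choose_spec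
  rwa [ValuationSubring.mem_nonunits_iff,
    dw_valuation_lt_one_iff v (rrk_sub_ne_zero hx _)] at this

include hx in
/-- `rrk_dOrd` at a finite place -/
theorem rrk_dOrd_fin (v : Place K F) (c : K) (hvc : 0 < v.ord (x - algebraMap K F c)) :
    rrk_dOrd x v = v.ord (x - algebraMap K F c) - 1 := by
  have hx0 := dw_x_ne_zero hx
  have hv : 0 ≤ v.ord x :=
    (hw_mem_iff_ord_nonneg v hx0).mp (dw_mem_of_ord_sub_pos v hvc)
  rw [rrk_dOrd, if_pos hv, hw_fiber_disjoint v (rrk_val_spec hx v hv) hvc]

theorem rrk_dOrd_inf (v : Place K F) (hv : v.ord x < 0) : rrk_dOrd x v = v.ord x - 1 := by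
  rw [rrk_dOrd, if_neg (by omega)]

end

/-! ### finitely many ramified places -/

section
variable [IsAlgClosed K] [CharZero K] {x : F} (hx : Transcendental K x) [FiniteDimensional K⟮x⟯ F]

include hx in
/-- a ramified finite place is a pole of a member of the trace-dual basis of a reduced basis -/
theorem rrk_ram_pole {n : ℕ} {b : Basis (Fin n) K⟮x⟯ F}
    (hb : rrk_Reduced x (rrk_I K x 0) b) (v : Place K F) (c : K)
    (hvc : 1 < v.ord (x - algebraMap K F c)) : ∃ i, v.ord (dd_dualBasis x b i) < 0 := by
  have hx0 := dw_x_ne_zero hx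
  have hxv : x ∈ v.toValuationSubring :=
    dw_mem_of_ord_sub_pos v (c := c) (by omega)
  set e := v.ord (x - algebraMap K F c) with he
  obtain ⟨f, hf, hf0, hfv⟩ := rrk_exists_exact hx (Finsupp.single v (e - 1)) v hxv
  rw [Finsupp.single_eq_same] at hfv
  -- `f` lies in the dual of `B`
  have hfd : f ∈ rrk_dual K x (rrk_I K x (0 : Divisor K F)) := by
    rw [rrk_mem_dual_I_iff hx]
    intro w c' hwc'
    right
    rw [Finsupp.zero_apply, zero_add]
    by_cases hwv : w = v
    · subst hwv
      rw [← hw_fiber_disjoint w (by omega : 0 < w.ord (x - algebraMap K F c)) hwc', hfv]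
      omega
    · have hxw : x ∈ w.toValuationSubring := dw_mem_of_ord_sub_pos w hwc'
      have := (rrk_mem_I_iff_ord hf0).mp hf w hxw
      rw [Finsupp.single_eq_of_ne hwv, neg_zero] at this
      omega
  have hcoord := (rrk_mem_dual_iff hx rrk_I_mul_mem hb).mp hfd
  by_contra hcon
  push Not at hcon
  -- then `f` is regular at `v`
  have hfmem : f ∈ v.toValuationSubring := by
    rw [← dw_sum_repr (dd_dualBasis x b) f]
    refine Subring.sum_mem _ fun i _ => ?_
    refine mul_mem ?_ ((dw_mem_iff_ord_nonneg v _).mpr (hcon i))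
    rw [dd_dualBasis_repr_coe]
    exact hcoord i v hxv
  have := (dw_mem_iff_ord_nonneg v f).mp hfmem
  omega

include hx in
theorem rrk_finite_ram : {v : Place K F | rrk_dOrd x v ≠ 0}.Finite := by
  have hsep : rt_IsSepGen K x := rt_isSepGen_of_charZero hx
  obtain ⟨b, hb⟩ := rrk_I_exists_reduced hx (0 : Divisor K F)
  have hT : (⋃ i, {w : Place K F | w.ord (dd_dualBasis x b i) < 0}).Finite :=
    Set.finite_iUnion fun i => rt_finite_poles hsep _
  refine ((hT.union (rt_finite_poles hsep x)).subset ?_)
  intro v hv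
  rw [Set.mem_ofPred_eq] at hv
  by_cases hvx : 0 ≤ v.ord x
  · left
    have hpos := rrk_val_spec hx v hvx
    rw [rrk_dOrd_fin hx v _ hpos] at hv
    obtain ⟨i, hi⟩ := rrk_ram_pole hx hb v (rrk_val v x) (by omega)
    exact Set.mem_iUnion.mpr ⟨i, hi⟩
  · right
    exact not_le.mp hvx

include hx in
/-- **the canonical divisor `div(dx)`** -/
theorem rrk_exists_canon : ∃ 𝔇 : Divisor K F, ∀ v, 𝔇 v = rrk_dOrd x v :=
  ⟨Finsupp.ofSupportFinite _ (rrk_finite_ram hx), fun _ => rfl⟩

end

end Fermat.Agent.MW
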