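/-
Project MW (S17), leaf [RRK] (Riemann–Roch with duality), part 5 (helper25): THE ASSEMBLY.
Prefix `rrk_`.

`K` algebraically closed of characteristic zero, `F / K` a function field, `x ∈ F` non-constant,
`P∞ = (x)_∞`, `𝔇 = div(dx)` (`rrk_dOrd`).
* `rrk_L_eq_inf`   : `L(D + r P∞) = I_D ∩ x^r B_∞`          (`D` without part over `x = ∞`);
* `rrk_L_canon_eq` : `L(𝔇 - D) = I_D^∨ ∩ x^{-2} B_∞^∨`        (`D` without part over `x = ∞`);
* `rrk_rr_fin`     : `l(D) - l(𝔇 - D) = deg D + 1 - g`        (`D` without part over `x = ∞`);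
* `rrk_rr`         : the same for every `D` (twist by a principal divisor);
* `rrk_riemannRoch`: the generic form of `mw_SeamRRK`.
-/
import Mathlib
import Fermat.Agent.MW.RRK.Canon

set_option autoImplicit false
set_option linter.unusedSectionVars false

noncomputable section

namespace Fermat.Agent.MW

open AlgebraicCurve IntermediateField Polynomial Module WithZero
open Fermat.Agent.S24 Fermat.Agent.S20 Fermat.Agent.JT3
open scoped Classical

universe u v
variable {K : Type u} {F : Type v} [Field K] [Field F] [Algebra K F]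

section
variable [IsAlgClosed K] [CharZero K] {x : F} (hx : Transcendental K x) [FiniteDimensional K⟮x⟯ F]

include hx in
/-- **(A)** `L(D + r P∞) = I_D ∩ x^r B_∞` when `D` has no part over `x = ∞` -/
theorem rrk_L_eq_inf (D : Divisor K F) (hD : ∀ v : Place K F, v.ord x < 0 → D v = 0) (r : ℤ) :
    riemannRochSpace (D + r • rt_poleDiv (rt_isSepGen_of_charZero hx) x) =
      rrk_I K x D ⊓ dw_Binf K x (-r) := by
  have hx0 := dw_x_ne_zero hx
  ext f
  rcases eq_or_ne f 0 with rfl | hf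
  · simp only [Submodule.zero_mem]
  rw [rt_mem_L_iff hf, Submodule.mem_inf, rrk_mem_I_iff_ord hf, dw_mem_Binf_iff_ord hx0 hf]
  have hP : ∀ v : Place K F, (D + r • rt_poleDiv (rt_isSepGen_of_charZero hx) x) v =
      D v + r * max (-v.ord x) 0 := by
    intro v
    rw [Finsupp.add_apply, Finsupp.smul_apply, rt_poleDiv_apply, smul_eq_mul]
  constructor
  · intro h
    refine ⟨fun v hv => ?_, fun v hv => ?_⟩
    · have h1 := h v
      rw [hP v, max_eq_right (by
        have := (hw_mem_iff_ord_nonneg v hx0).mp hv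
        omega), mul_zero, add_zero] at h1
      exact h1
    · have h1 := h v
      rw [hP v, hD v hv, max_eq_left (by omega), zero_add] at h1
      linarith
  · rintro ⟨h1, h2⟩ v
    rw [hP v]
    by_cases hv : 0 ≤ v.ord x
    · rw [max_eq_right (by omega), mul_zero, add_zero]
      exact h1 v ((hw_mem_iff_ord_nonneg v hx0).mpr hv)
    · have hv' : v.ord x < 0 := not_le.mp hv
      rw [hD v hv', max_eq_left (by omega), zero_add]
      have := h2 v hv'
      linarith

include hx in
/-- **(B)** `L(div(dx) - D) = I_D^∨ ∩ x^{-2} B_∞^∨` when `D` has no part over `x = ∞` -/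
theorem rrk_L_canon_eq (D : Divisor K F) (hD : ∀ v : Place K F, v.ord x < 0 → D v = 0)
    (𝔇 : Divisor K F) (h𝔇 : ∀ v, 𝔇 v = rrk_dOrd x v) :
    riemannRochSpace (𝔇 - D) = rrk_dual K x (rrk_I K x D) ⊓ dw_Binfd K x 2 := by
  have hx0 := dw_x_ne_zero hx
  ext h
  rcases eq_or_ne h 0 with rfl | hh
  · simp only [Submodule.zero_mem]
  rw [rt_mem_L_iff hh, Submodule.mem_inf, rrk_mem_dual_I_iff hx, rrk_Binfd_eq_Cinf hx, dw_mem_Cinf]
  have hne : h * x ^ (-(-2 : ℤ)) * x⁻¹ ≠ 0 :=
    mul_ne_zero (mul_ne_zero hh (zpow_ne_zero _ hx0)) (inv_ne_zero hx0)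
  have hord : ∀ v : Place K F, v.ord (h * x ^ (-(-2 : ℤ)) * x⁻¹) = v.ord h + v.ord x := by
    intro v
    rw [v.ord_mul (mul_ne_zero hh (zpow_ne_zero _ hx0)) (inv_ne_zero hx0),
      v.ord_mul hh (zpow_ne_zero _ hx0), v.ord_zpow, v.ord_inv]
    ring
  constructor
  · intro hL
    refine ⟨fun v c hvc => Or.inr ?_, fun v hv => ?_⟩
    · have h1 := hL v
      rw [Finsupp.sub_apply, h𝔇 v, rrk_dOrd_fin hx v c hvc] at h1
      omega
    · rw [dw_adicValuation_lt_one_iff v hne, hord v]
      have h1 := hL v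
      rw [Finsupp.sub_apply, h𝔇 v, rrk_dOrd_inf v hv, hD v hv] at h1
      omega
  · rintro ⟨h1, h2⟩ v
    rw [Finsupp.sub_apply, h𝔇 v]
    by_cases hv : 0 ≤ v.ord x
    · have hpos := rrk_val_spec hx v hv
      rw [rrk_dOrd_fin hx v _ hpos]
      have := (h1 v _ hpos).resolve_left hh
      omega
    · have hv' : v.ord x < 0 := not_le.mp hv
      rw [rrk_dOrd_inf v hv', hD v hv']
      have := h2 v hv'
      rw [dw_adicValuation_lt_one_iff v hne, hord v] at this
      omega

include hx in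
/-- **(C)** Riemann–Roch for divisors without part over `x = ∞` -/
theorem rrk_rr_fin (g : ℕ) (c : ℤ)
    (hR : ∀ D : Divisor K F, Module.Finite K ↥(riemannRochSpace D) ∧
      (c ≤ Divisor.degree D →
        (Module.finrank K ↥(riemannRochSpace D) : ℤ) = Divisor.degree D + 1 - g))
    (𝔇 : Divisor K F) (h𝔇 : ∀ v, 𝔇 v = rrk_dOrd x v)
    (D : Divisor K F) (hD : ∀ v : Place K F, v.ord x < 0 → D v = 0) :
    (Module.finrank K ↥(riemannRochSpace D) : ℤ) -
      Module.finrank K ↥(riemannRochSpace (𝔇 - D)) = Divisor.degree D + 1 - g := by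
  have hsep : rt_IsSepGen K x := rt_isSepGen_of_charZero hx
  obtain ⟨b, hb⟩ := rrk_I_exists_reduced hx D
  have hΛ := rrk_I_mul_mem (K := K) (x := x) (D := D)
  set a : Fin (Module.finrank K⟮x⟯ F) → ℤ := fun i => dw_deg K x (b i) with ha
  -- `l(D)`
  have h1 : (Module.finrank K ↥(riemannRochSpace D) : ℤ) = ∑ i, ((1 - a i).toNat : ℤ) := by
    have h0 := rrk_L_eq_inf hx D hD 0
    rw [zero_smul, add_zero] at h0
    rw [h0, (rrk_finrank_inf hx hΛ hb 0).2, Nat.cast_sum]
    refine Finset.sum_congr rfl fun i _ => ?_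
    congr 2
    simp only [ha]
    ring
  -- `l(𝔇 - D)`
  have h2 : (Module.finrank K ↥(riemannRochSpace (𝔇 - D)) : ℤ) =
      ∑ i, ((a i - 1).toNat : ℤ) := by
    rw [rrk_L_canon_eq hx D hD 𝔇 h𝔇, (rrk_finrank_dual hx hΛ hb 2).2, Nat.cast_sum]
    refine Finset.sum_congr rfl fun i _ => ?_
    congr 2
    simp only [ha]
    ring
  -- the difference
  have h3 : (Module.finrank K ↥(riemannRochSpace D) : ℤ) -
      Module.finrank K ↥(riemannRochSpace (𝔇 - D)) = ∑ i, (1 - a i) := by
    rw [h1, h2, ← Finset.sum_sub_distrib]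
    refine Finset.sum_congr rfl fun i _ => ?_
    have := Int.toNat_sub_toNat_neg (1 - a i)
    rw [neg_sub] at this
    exact this
  rw [h3]
  -- Riemann's theorem at `D + r P∞`, `r` large
  set r : ℤ := ∑ i, |a i| + |c - Divisor.degree D| with hr
  have hra : ∀ i, a i ≤ r := by
    intro i
    have h4 : |a i| ≤ ∑ j, |a j| :=
      Finset.single_le_sum (f := fun j => |a j|) (fun j _ => abs_nonneg (a j)) (Finset.mem_univ i)
    have h5 := le_abs_self (a i)
    have h6 := abs_nonneg (c - Divisor.degree D)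
    omega
  have hr0 : 0 ≤ r := by
    have h4 : 0 ≤ ∑ j, |a j| := Finset.sum_nonneg fun j _ => abs_nonneg (a j)
    have h6 := abs_nonneg (c - Divisor.degree D)
    omega
  have hrc : c - Divisor.degree D ≤ r := by
    have h4 : 0 ≤ ∑ j, |a j| := Finset.sum_nonneg fun j _ => abs_nonneg (a j)
    have h6 := le_abs_self (c - Divisor.degree D)
    omega
  have hn1 : (1 : ℤ) ≤ (Module.finrank K⟮x⟯ F : ℤ) := by
    have : 0 < Module.finrank K⟮x⟯ F := Module.finrank_pos
    omega
  have hdeg : Divisor.degree (D + r • rt_poleDiv hsep x) =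
      Divisor.degree D + r * (Module.finrank K⟮x⟯ F : ℤ) := by
    rw [map_add, map_zsmul, rt_degree_poleDiv hsep hx, smul_eq_mul]
  have hcd : c ≤ Divisor.degree (D + r • rt_poleDiv hsep x) := by
    rw [hdeg]
    nlinarith
  have h7 := (hR (D + r • rt_poleDiv hsep x)).2 hcd
  rw [hdeg, rrk_L_eq_inf hx D hD r, (rrk_finrank_inf hx hΛ hb r).2, Nat.cast_sum] at h7
  have h8 : ∑ i, ((r - dw_deg K x (b i) + 1).toNat : ℤ) = ∑ i, (r - a i + 1) := by
    refine Finset.sum_congr rfl fun i _ => ?_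
    have := hra i
    simp only [ha] at this ⊢
    omega
  rw [h8] at h7
  have h9 : ∑ i, (r - a i + 1) = ∑ i, (1 - a i) + r * (Module.finrank K⟮x⟯ F : ℤ) := by
    have h10 : ∑ _i : Fin (Module.finrank K⟮x⟯ F), r = r * (Module.finrank K⟮x⟯ F : ℤ) := by
      rw [Finset.sum_const, Finset.card_univ, Fintype.card_fin, nsmul_eq_mul, mul_comm]
    rw [← h10, ← Finset.sum_add_distrib]
    refine Finset.sum_congr rfl fun i _ => ?_
    ring
  rw [h9] at h7
  linarith

include hx in
/-- **(D)** Riemann–Roch with duality, the canonical divisor being `div(dx)` -/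
theorem rrk_rr (g : ℕ) (c : ℤ)
    (hR : ∀ D : Divisor K F, Module.Finite K ↥(riemannRochSpace D) ∧
      (c ≤ Divisor.degree D →
        (Module.finrank K ↥(riemannRochSpace D) : ℤ) = Divisor.degree D + 1 - g))
    (𝔇 : Divisor K F) (h𝔇 : ∀ v, 𝔇 v = rrk_dOrd x v) (D : Divisor K F) :
    (Module.finrank K ↥(riemannRochSpace D) : ℤ) -
      Module.finrank K ↥(riemannRochSpace (𝔇 - D)) = Divisor.degree D + 1 - g := by
  have hsep : rt_IsSepGen K x := rt_isSepGen_of_charZero hx
  obtain ⟨w, hw0, hw⟩ := rt_exists_ord_eq hsep (rt_finite_poles hsep x).toFinset (fun v => -D v)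
  have hD' : ∀ v : Place K F, v.ord x < 0 → (D + rt_div hsep w) v = 0 := by
    intro v hv
    rw [Finsupp.add_apply, rt_div_apply, hw v ((rt_finite_poles hsep x).mem_toFinset.mpr hv)]
    ring
  have key := rrk_rr_fin hx g c hR 𝔇 h𝔇 (D + rt_div hsep w) hD'
  rw [rt_finrank_L_add_div hsep D hw0, map_add, rt_degree_div hsep w, add_zero] at key
  have h2 : 𝔇 - (D + rt_div hsep w) = (𝔇 - D) + rt_div hsep w⁻¹ := by
    rw [rt_div_inv]
    abel
  rw [h2, rt_finrank_L_add_div hsep (𝔇 - D) (inv_ne_zero hw0)] at key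
  exact key

end

/-- **Riemann–Roch with duality** (generic form of `mw_SeamRRK`): ONE genus `g` such that for every
non-constant `t` the divisor of `dt` is canonical. -/
theorem rrk_riemannRoch [IsAlgClosed K] [CharZero K] (x₀ : F) (hx₀ : Transcendental K x₀)
    [FiniteDimensional K⟮x₀⟯ F] :
    ∃ g : ℕ, ∀ t : F, (∀ c : K, t ≠ algebraMap K F c) →
      ∃ 𝔇 : Divisor K F, (∀ z, 𝔇 z = rrk_dOrd t z) ∧
        ∀ D : Divisor K F, (Module.finrank K ↥(riemannRochSpace D) : ℤ) -
          Module.finrank K ↥(riemannRochSpace (𝔇 - D)) = Divisor.degree D + 1 - g := by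
  obtain ⟨g, c, hR⟩ := rt_riemann (rt_isSepGen_of_charZero hx₀)
  refine ⟨g, fun t ht => ?_⟩
  have htr : Transcendental K t := by
    rcases hw_const_or_transcendental (K := K) t with ⟨c, hc⟩ | h
    · exact absurd hc (ht c)
    · exact h
  have : FiniteDimensional K⟮t⟯ F := hw_finiteDimensional_adjoin x₀ htr
  obtain ⟨𝔇, h𝔇⟩ := rrk_exists_canon htr
  exact ⟨𝔇, h𝔇, rrk_rr htr g c hR 𝔇 h𝔇⟩

end Fermat.Agent.MW
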