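/-
Project MW (S17), leaf [RRK], part 6 (helper25): THE BRIDGE between the canonical divisor `div(dx)`
of `[RRK]` (`rrk_dOrd`) and the differentials of S24/Hurwitz (`Place.ordDifferential`, the
derivation `hw_deriv hx = d/dx`).  Prefix `rrk_`.

`K` algebraically closed of characteristic zero, `F / K` a function field, `x ∈ F` non-constant.
* `rrk_dOrd_eq_ordDifferential` : `rrk_dOrd x v = ord_v (dx)`;
* `rrk_ordDifferential_D`       : `ord_v (df) = ord_v (df/dx) + rrk_dOrd x v`   (`df ≠ 0`);
* `rrk_ord_deriv_fin / _inf`    : `ord_v (df/dx)` at a zero of `f - c` / at a pole of `f`;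
* `rrk_ord_deriv_ge`            : `ord_v (df/dx) ≥ - rrk_dOrd x v` for `f` regular at `v`;
* `rrk_irreducible_of_ord`      : an element of order one is a uniformiser;
* `rrk_deriv_div_mem`           : `(dh/dx)/(dπ/dx) ∈ O_v` for `h ∈ O_v`, `π` a uniformiser;
* `rrk_deriv_taylor`            : `(df/dx)/(dπ/dx) ≡ (f - c)/π mod 𝔪_v` when `f(v) = c`.
-/
import Mathlib
import Fermat.Agent.MW.RRK.Canon
import Fermat.Agent.S24.Hurwitz.Differentials

set_option autoImplicit false
set_option linter.unusedSectionVars false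

noncomputable section

namespace Fermat.Agent.MW

open AlgebraicCurve IntermediateField KaehlerDifferential
open Fermat.Agent.S24 Fermat.Agent.S20 Fermat.Agent.JT3
open scoped Classical

universe u v
variable {K : Type u} {F : Type v} [Field K] [Field F] [Algebra K F]
variable [IsAlgClosed K] [CharZero K] {x : F} (hx : Transcendental K x) [FiniteDimensional K⟮x⟯ F]

include hx in
/-- `rrk_dOrd x v` is the order at `v` of the differential `dx` -/
theorem rrk_dOrd_eq_ordDifferential (v : Place K F) :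
    rrk_dOrd x v = v.ordDifferential (D K F x) := by
  by_cases hv : 0 ≤ v.ord x
  · have hpos := rrk_val_spec hx v hv
    rw [rrk_dOrd, if_pos hv,
      hw_ordDifferential_D_sub_const hx v (rrk_val v x) (by omega)]
  · have hv' : v.ord x < 0 := not_le.mp hv
    rw [rrk_dOrd_inf v hv', hw_ordDifferential_D hx v (by omega)]

theorem rrk_deriv_ne_zero {f : F} (hf : D K F f ≠ 0) : hw_deriv hx f ≠ 0 := by
  intro h
  apply hf
  rw [hw_D_eq_deriv_smul hx f, h, zero_smul]

/-- `ord_v (df) = ord_v (df/dx) + ord_v (dx)` -/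
theorem rrk_ordDifferential_D (v : Place K F) {f : F} (hf : D K F f ≠ 0) :
    v.ordDifferential (D K F f) = v.ord (hw_deriv hx f) + rrk_dOrd x v := by
  rw [rrk_dOrd_eq_ordDifferential hx v]
  conv_lhs => rw [hw_D_eq_deriv_smul hx f]
  exact hw_ordDifferential_smul hx v (rrk_deriv_ne_zero hx hf) (hw_D_ne_zero hx)

include hx in
theorem rrk_D_ne_zero_of_ord (v : Place K F) {f : F} (hf : v.ord f ≠ 0) : D K F f ≠ 0 := by
  have htr := hw_transcendental_of_ord_ne_zero v hf
  have := hw_finiteDimensional_adjoin x htr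
  exact hw_D_ne_zero htr

/-- the order of `df/dx` at a zero of `f - c` -/
theorem rrk_ord_deriv_fin (v : Place K F) {f : F} (c : K)
    (hf : 0 < v.ord (f - algebraMap K F c)) :
    v.ord (hw_deriv hx f) = v.ord (f - algebraMap K F c) - 1 - rrk_dOrd x v := by
  have hne : D K F f ≠ 0 := by
    have := rrk_D_ne_zero_of_ord hx v (f := f - algebraMap K F c) (by omega)
    rwa [map_sub, Derivation.map_algebraMap, sub_zero] at this
  have h1 := rrk_ordDifferential_D hx v hne
  rw [hw_ordDifferential_D_sub_const hx v c (by omega)] at h1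
  omega

/-- the order of `df/dx` at a pole of `f` -/
theorem rrk_ord_deriv_inf (v : Place K F) {f : F} (hf : v.ord f < 0) :
    v.ord (hw_deriv hx f) = v.ord f - 1 - rrk_dOrd x v := by
  have hne : D K F f ≠ 0 := rrk_D_ne_zero_of_ord hx v (by omega)
  have h1 := rrk_ordDifferential_D hx v hne
  rw [hw_ordDifferential_D hx v (by omega)] at h1
  omega

/-- `df/dx` has order at least `- ord_v (dx)` at a place where `f` is regular -/
theorem rrk_ord_deriv_ge (v : Place K F) {f : F} (hf : 0 ≤ v.ord f)
    (hf' : hw_deriv hx f ≠ 0) : -rrk_dOrd x v ≤ v.ord (hw_deriv hx f) := by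
  have hf0 : f ≠ 0 := by
    rintro rfl
    exact hf' (map_zero _)
  have hfv : f ∈ v.toValuationSubring := (hw_mem_iff_ord_nonneg v hf0).mpr hf
  obtain ⟨c, hc | hc⟩ := hw_exists_const x v hfv
  · exfalso
    apply hf'
    rw [hc, Derivation.map_algebraMap]
  · have := rrk_ord_deriv_fin hx v c hc
    omega

omit [IsAlgClosed K] [CharZero K] [FiniteDimensional K⟮x⟯ F] in
/-- an element of order one is a uniformiser -/
theorem rrk_irreducible_of_ord (v : Place K F) {π : F} (hπ : v.ord π = 1) :
    ∃ hmem : π ∈ v.toValuationSubring, Irreducible (⟨π, hmem⟩ : v.toValuationSubring) := by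
  have hπ0 : π ≠ 0 := by
    rintro rfl
    simp at hπ
  obtain ⟨ϖ, hϖ⟩ := IsDiscreteValuationRing.exists_irreducible v.toValuationSubring
  obtain ⟨w, hw⟩ := v.exists_unit_mul_zpow hπ0 hϖ
  rw [hπ, zpow_one] at hw
  have hmem : π ∈ v.toValuationSubring := by
    rw [hw]
    exact (w * ϖ : v.toValuationSubring).2
  refine ⟨hmem, ?_⟩
  have : (⟨π, hmem⟩ : v.toValuationSubring) = (w : v.toValuationSubring) * ϖ :=
    Subtype.ext hw
  rw [this]
  exact (irreducible_units_mul w).mpr hϖ

/-- `(dh/dx)/(dπ/dx)` is regular at `v` for `h` regular at `v` and `π` a uniformiser at `v` -/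
theorem rrk_deriv_div_mem (v : Place K F) {π h : F} (hπ : v.ord π = 1)
    (hh : h ∈ v.toValuationSubring) :
    hw_deriv hx h / hw_deriv hx π ∈ v.toValuationSubring := by
  obtain ⟨hmem, hirr⟩ := rrk_irreducible_of_ord v hπ
  obtain ⟨g, hg⟩ := hw_exists_D_eq_smul hx v hirr ⟨h, hh⟩
  have hDπ : D K F π ≠ 0 := rrk_D_ne_zero_of_ord hx v (by omega)
  have hdπ : hw_deriv hx π ≠ 0 := rrk_deriv_ne_zero hx hDπ
  have h1 : hw_deriv hx h = (g : F) * hw_deriv hx π := by
    have := congrArg (hw_kaehlerEquiv hx) hg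
    rw [map_smul, smul_eq_mul] at this
    exact this
  rw [h1, mul_div_assoc, div_self hdπ, mul_one]
  exact g.2

/-- **Taylor**: `(df/dx)/(dπ/dx) ≡ (f - c)/π mod 𝔪_v` if `f(v) = c` and `π` is a uniformiser -/
theorem rrk_deriv_taylor (v : Place K F) {π f : F} (hπ : v.ord π = 1) (c : K)
    (hfc : 0 < v.ord (f - algebraMap K F c)) :
    hw_deriv hx f / hw_deriv hx π - (f - algebraMap K F c) / π ∈
      v.toValuationSubring.nonunits := by
  have hπ0 : π ≠ 0 := by
    rintro rfl
    simp at hπ
  have hDπ : D K F π ≠ 0 := rrk_D_ne_zero_of_ord hx v (by omega)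
  have hdπ : hw_deriv hx π ≠ 0 := rrk_deriv_ne_zero hx hDπ
  have hne : f - algebraMap K F c ≠ 0 := by
    intro h0
    rw [h0] at hfc
    simp at hfc
  set h : F := (f - algebraMap K F c) / π with hh
  have hh0 : h ≠ 0 := div_ne_zero hne hπ0
  have hhord : 0 ≤ v.ord h := by
    rw [hh, div_eq_mul_inv, v.ord_mul hne (inv_ne_zero hπ0), v.ord_inv, hπ]
    omega
  have hhmem : h ∈ v.toValuationSubring := (hw_mem_iff_ord_nonneg v hh0).mpr hhord
  have hf : f = algebraMap K F c + π * h := by
    rw [hh]
    field_simp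
    ring
  have hd : hw_deriv hx f = hw_deriv hx π * h + π * hw_deriv hx h := by
    conv_lhs => rw [hf]
    rw [map_add, Derivation.map_algebraMap, zero_add, Derivation.leibniz, smul_eq_mul,
      smul_eq_mul]
    ring
  have hkey : hw_deriv hx f / hw_deriv hx π - h = π * (hw_deriv hx h / hw_deriv hx π) := by
    rw [hd]
    field_simp
    ring
  rw [hkey]
  have hg := rrk_deriv_div_mem hx v hπ hhmem
  have hπmem : π ∈ v.toValuationSubring.nonunits := by
    rw [ValuationSubring.mem_nonunits_iff, dw_valuation_lt_one_iff v hπ0]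
    omega
  rw [ValuationSubring.mem_nonunits_iff] at hπmem ⊢
  rw [map_mul]
  have hg1 := (v.toValuationSubring.valuation_le_one_iff _).mpr hg
  exact mul_lt_one_of_lt_of_le hπmem hg1

end Fermat.Agent.MW
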