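/-
Project MW (S17), cell [RRK], leaf [LAT] (helper11): THE ABSTRACT LATTICE THEOREM (Mathlib only).

`K` a field, `Q ⊇ K[t]` a field with a degree function `d` (`rrk_IsDeg`), `F` a finite dimensional
`Q`-space with a norm `ν` (`rrk_IsNorm`: ultrametric, `ν (r • f) = d r + ν f`).  A `K[t]`-lattice is
`rrk_latt t w = {f | all coordinates of f in the Q-basis w are polynomials in t}`.

* `rrk_exists_reduced` : if `{f ∈ latt u | ν f ≤ 0}` is finite dimensional over `K`, the lattice has
  a REDUCED basis `w`: `ν (∑ rᵢ wᵢ) ≤ k ↔ ∀ i, d rᵢ + ν wᵢ ≤ k`;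
* `rrk_finrank_of_redW` : for a reduced basis `dim_K {f ∈ latt w | ν f ≤ k} = ∑ᵢ (k - ν wᵢ + 1)⁺`;
* `rrk_dual_redW` : under the compatibilities (A), (B) the dual basis is reduced for `ν'` with
  weights `2 - ν wᵢ`;
* `rrk_lattice_main` : the Riemann–Roch formula for the pair of lattices.
Prefix `rrk_`.
-/
import Mathlib

set_option autoImplicit false
set_option linter.unusedSectionVars false

namespace Fermat.Agent.MW

open Polynomial Module

section deg

variable {K Q : Type*} [Field K] [Field Q] [Algebra K Q]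

/-- `d` is a degree function on `Q ⊇ K[t]`. -/
structure rrk_IsDeg (K : Type*) {Q : Type*} [Field K] [Field Q] [Algebra K Q] (t : Q) (d : Q → ℤ) :
    Prop where
  mul : ∀ r r' : Q, r ≠ 0 → r' ≠ 0 → d (r * r') = d r + d r'
  add : ∀ r r' : Q, r ≠ 0 → r' ≠ 0 → r + r' ≠ 0 → d (r + r') ≤ max (d r) (d r')
  const : ∀ c : K, c ≠ 0 → d (algebraMap K Q c) = 0
  gen : d t = 1
  gen_ne : t ≠ 0
  frac : ∀ r : Q, ∃ q : K[X], q ≠ 0 ∧ ∃ p : K[X], r * aeval t q = aeval t p

variable {t : Q} {d : Q → ℤ}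

theorem rrk_IsDeg.one (h : rrk_IsDeg K t d) : d 1 = 0 := by
  have := h.const 1 one_ne_zero
  rwa [map_one] at this

theorem rrk_IsDeg.neg (h : rrk_IsDeg K t d) (r : Q) : d (-r) = d r := by
  rcases eq_or_ne r 0 with rfl | hr
  · simp
  have h1 : (-1 : K) ≠ 0 := neg_ne_zero.mpr one_ne_zero
  have h2 : algebraMap K Q (-1) ≠ 0 := by
    rw [Ne, map_eq_zero]; exact h1
  have h3 := h.mul _ _ h2 hr
  rw [h.const _ h1, zero_add] at h3
  rw [← h3]
  congr 1
  rw [map_neg, map_one, neg_one_mul]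

theorem rrk_IsDeg.pow (h : rrk_IsDeg K t d) (m : ℕ) : d (t ^ m) = m := by
  induction m with
  | zero => simpa using h.one
  | succ m ih =>
    rw [pow_succ, h.mul _ _ (pow_ne_zero _ h.gen_ne) h.gen_ne, ih, h.gen]
    push_cast; ring

theorem rrk_IsDeg.add_eq_of_lt (h : rrk_IsDeg K t d) {r r' : Q} (hr : r ≠ 0)
    (hr' : r' = 0 ∨ d r' < d r) : r + r' ≠ 0 ∧ d (r + r') = d r := by
  rcases eq_or_ne r' 0 with rfl | hr'0
  · simp [hr]
  have hlt := hr'.resolve_left hr'0
  have hne : r + r' ≠ 0 := by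
    intro h0
    have : r' = -r := by rw [eq_neg_iff_add_eq_zero, add_comm]; exact h0
    rw [this, h.neg] at hlt
    exact lt_irrefl _ hlt
  refine ⟨hne, le_antisymm ?_ ?_⟩
  · have := h.add r r' hr hr'0 hne
    rwa [max_eq_left hlt.le] at this
  · have h1 : r = (r + r') + -r' := by ring
    have h2 := h.add (r + r') (-r') hne (neg_ne_zero.mpr hr'0) (by rwa [← h1])
    rw [← h1, h.neg] at h2
    rcases le_max_iff.mp h2 with h3 | h3
    · exact h3
    · exact absurd h3 (not_le.mpr hlt)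

theorem rrk_IsDeg.eval_aux (h : rrk_IsDeg K t d) :
    ∀ (m : ℕ) (p : K[X]), p.natDegree = m → p ≠ 0 →
      aeval t p ≠ 0 ∧ d (aeval t p) = p.natDegree := by
  intro m
  induction m using Nat.strong_induction_on with
  | _ m ih =>
    intro p hm hp
    have hdec : aeval t p = algebraMap K Q p.leadingCoeff * t ^ p.natDegree
        + aeval t p.eraseLead := by
      conv_lhs => rw [← eraseLead_add_C_mul_X_pow p]
      rw [map_add, map_mul, aeval_C, map_pow, aeval_X, add_comm]
    have hlc : p.leadingCoeff ≠ 0 := leadingCoeff_ne_zero.mpr hp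
    have hlc' : algebraMap K Q p.leadingCoeff ≠ 0 := by rwa [Ne, map_eq_zero]
    have hlead0 : algebraMap K Q p.leadingCoeff * t ^ p.natDegree ≠ 0 :=
      mul_ne_zero hlc' (pow_ne_zero _ h.gen_ne)
    have hleadd : d (algebraMap K Q p.leadingCoeff * t ^ p.natDegree) = p.natDegree := by
      rw [h.mul _ _ hlc' (pow_ne_zero _ h.gen_ne), h.const _ hlc, h.pow, zero_add]
    have hrest : aeval t p.eraseLead = 0 ∨
        d (aeval t p.eraseLead) < d (algebraMap K Q p.leadingCoeff * t ^ p.natDegree) := by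
      by_cases he : p.eraseLead = 0
      · left; rw [he, map_zero]
      · right
        have hlt : p.eraseLead.natDegree < m := by
          rcases eraseLead_natDegree_lt_or_eraseLead_eq_zero p with h1 | h1
          · rwa [hm] at h1
          · exact absurd h1 he
        rw [(ih _ hlt _ rfl he).2, hleadd, hm]
        exact_mod_cast hlt
    have := h.add_eq_of_lt hlead0 hrest
    rw [← hdec] at this
    exact ⟨this.1, this.2.trans hleadd⟩

theorem rrk_IsDeg.aeval_ne_zero (h : rrk_IsDeg K t d) {p : K[X]} (hp : p ≠ 0) :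
    aeval t p ≠ 0 := (h.eval_aux _ p rfl hp).1

theorem rrk_IsDeg.d_aeval (h : rrk_IsDeg K t d) {p : K[X]} (hp : p ≠ 0) :
    d (aeval t p) = p.natDegree := (h.eval_aux _ p rfl hp).2

theorem rrk_IsDeg.aeval_injective (h : rrk_IsDeg K t d) :
    Function.Injective (aeval t : K[X] → Q) := by
  rw [injective_iff_map_eq_zero]
  intro p hp
  by_contra hne
  exact h.aeval_ne_zero hne hp

end deg

section norm

variable {K Q F : Type*} [Field K] [Field Q] [Algebra K Q] [AddCommGroup F] [Module Q F]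

/-- `ν` is a norm on the `Q`-space `F` for the degree function `d`. -/
structure rrk_IsNorm (d : Q → ℤ) (ν : F → ℤ) : Prop where
  add : ∀ f g : F, f ≠ 0 → g ≠ 0 → f + g ≠ 0 → ν (f + g) ≤ max (ν f) (ν g)
  smul : ∀ (r : Q) (f : F), r ≠ 0 → f ≠ 0 → ν (r • f) = d r + ν f

/-- `ν f ≤ k` (with `ν 0 = -∞`). -/
def rrk_le (ν : F → ℤ) (k : ℤ) (f : F) : Prop := f = 0 ∨ ν f ≤ k

variable {t : Q} {d : Q → ℤ} {ν : F → ℤ}

theorem rrk_le_zero (k : ℤ) : rrk_le ν k (0 : F) := Or.inl rfl

theorem rrk_le.mono {k k' : ℤ} {f : F} (h : rrk_le ν k f) (hk : k ≤ k') : rrk_le ν k' f :=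
  h.imp id fun h' => h'.trans hk

theorem rrk_le_self (f : F) : rrk_le ν (ν f) f := Or.inr le_rfl

theorem rrk_le.le {k : ℤ} {f : F} (h : rrk_le ν k f) (hf : f ≠ 0) : ν f ≤ k :=
  h.resolve_left hf

theorem rrk_le.add (hν : rrk_IsNorm d ν) {k : ℤ} {f g : F} (hf : rrk_le ν k f)
    (hg : rrk_le ν k g) : rrk_le ν k (f + g) := by
  rcases eq_or_ne f 0 with rfl | hf0
  · rwa [zero_add]
  rcases eq_or_ne g 0 with rfl | hg0
  · rwa [add_zero]
  rcases eq_or_ne (f + g) 0 with h0 | h0
  · exact Or.inl h0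
  · exact Or.inr ((hν.add f g hf0 hg0 h0).trans (max_le (hf.le hf0) (hg.le hg0)))

theorem rrk_le.sum (hν : rrk_IsNorm d ν) {ι : Type*} (s : Finset ι) {k : ℤ} (g : ι → F)
    (h : ∀ i ∈ s, rrk_le ν k (g i)) : rrk_le ν k (∑ i ∈ s, g i) := by
  classical
  induction s using Finset.induction_on with
  | empty => simpa using rrk_le_zero k
  | insert a s ha ih =>
    rw [Finset.sum_insert ha]
    exact (h a (Finset.mem_insert_self a s)).add hν
      (ih fun i hi => h i (Finset.mem_insert_of_mem hi))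

theorem rrk_le.smul (hν : rrk_IsNorm d ν) {k j : ℤ} {f : F} {r : Q} (hf : rrk_le ν k f)
    (hr : r = 0 ∨ d r ≤ j) : rrk_le ν (j + k) (r • f) := by
  rcases eq_or_ne r 0 with rfl | hr0
  · rw [zero_smul]; exact rrk_le_zero _
  rcases eq_or_ne f 0 with rfl | hf0
  · rw [smul_zero]; exact rrk_le_zero _
  right
  rw [hν.smul r f hr0 hf0]
  exact add_le_add (hr.resolve_left hr0) (hf.le hf0)

theorem rrk_IsNorm.neg (hd : rrk_IsDeg K t d) (hν : rrk_IsNorm d ν) (f : F) : ν (-f) = ν f := by
  rcases eq_or_ne f 0 with rfl | hf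
  · simp
  have h1 : (-1 : Q) ≠ 0 := neg_ne_zero.mpr one_ne_zero
  have := hν.smul (-1) f h1 hf
  rwa [neg_one_smul, hd.neg, hd.one, zero_add] at this

theorem rrk_le.neg (hd : rrk_IsDeg K t d) (hν : rrk_IsNorm d ν) {k : ℤ} {f : F}
    (hf : rrk_le ν k f) : rrk_le ν k (-f) := by
  rcases hf with rfl | hf
  · rw [neg_zero]; exact rrk_le_zero _
  · right; rwa [hν.neg hd]

theorem rrk_le.sub (hd : rrk_IsDeg K t d) (hν : rrk_IsNorm d ν) {k : ℤ} {f g : F}
    (hf : rrk_le ν k f) (hg : rrk_le ν k g) : rrk_le ν k (f - g) := by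
  rw [sub_eq_add_neg]
  exact hf.add hν (hg.neg hd hν)

/-- the strict ultrametric inequality -/
theorem rrk_IsNorm.add_eq_of_lt (hd : rrk_IsDeg K t d) (hν : rrk_IsNorm d ν) {f g : F}
    (hf : f ≠ 0) (hg : rrk_le ν (ν f - 1) g) : f + g ≠ 0 ∧ ν (f + g) = ν f := by
  rcases eq_or_ne g 0 with rfl | hg0
  · simp [hf]
  have hlt : ν g < ν f := by have := hg.le hg0; omega
  have hne : f + g ≠ 0 := by
    intro h0
    have : g = -f := by rw [eq_neg_iff_add_eq_zero, add_comm]; exact h0
    rw [this, hν.neg hd] at hlt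
    exact lt_irrefl _ hlt
  refine ⟨hne, le_antisymm ?_ ?_⟩
  · have := hν.add f g hf hg0 hne
    rwa [max_eq_left hlt.le] at this
  · have h1 : f = (f + g) + -g := by abel
    have h2 := hν.add (f + g) (-g) hne (neg_ne_zero.mpr hg0) (by rwa [← h1])
    rw [← h1, hν.neg hd] at h2
    rcases le_max_iff.mp h2 with h3 | h3
    · exact h3
    · exact absurd h3 (not_le.mpr hlt)

/-- multiplication by a polynomial in `t` -/
theorem rrk_le.smul_aeval (hd : rrk_IsDeg K t d) (hν : rrk_IsNorm d ν) {k : ℤ} {f : F}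
    (hf : rrk_le ν k f) (p : K[X]) : rrk_le ν (p.natDegree + k) (aeval t p • f) := by
  refine hf.smul hν ?_
  rcases eq_or_ne p 0 with rfl | hp
  · left; simp
  · right; rw [hd.d_aeval hp]

end norm

section latt

variable {K Q F : Type*} [Field K] [Field Q] [Algebra K Q] [AddCommGroup F] [Module Q F]
variable {ι : Type*} [Fintype ι] [DecidableEq ι]

/-- the `K[t]`-lattice spanned by the `Q`-basis `w` -/
def rrk_latt (K : Type*) {Q F ι : Type*} [Field K] [Field Q] [Algebra K Q] [AddCommGroup F]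
    [Module Q F] (t : Q) (w : Basis ι Q F) : AddSubgroup F where
  carrier := {f | ∀ i, ∃ p : K[X], w.repr f i = aeval t p}
  zero_mem' := fun i => ⟨0, by simp⟩
  add_mem' := by
    intro f g hf hg i
    obtain ⟨p, hp⟩ := hf i
    obtain ⟨q, hq⟩ := hg i
    exact ⟨p + q, by simp [hp, hq]⟩
  neg_mem' := by
    intro f hf i
    obtain ⟨p, hp⟩ := hf i
    exact ⟨-p, by simp [hp]⟩

variable {t : Q} {w w' : Basis ι Q F}

theorem rrk_mem_latt_iff {f : F} :
    f ∈ rrk_latt K t w ↔ ∀ i, ∃ p : K[X], w.repr f i = aeval t p := Iff.rfl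

theorem rrk_latt_smul_mem {f : F} (hf : f ∈ rrk_latt K t w) (p : K[X]) :
    aeval t p • f ∈ rrk_latt K t w := by
  intro i
  obtain ⟨q, hq⟩ := hf i
  exact ⟨p * q, by simp [hq]⟩

theorem rrk_basis_mem_latt (i : ι) : w i ∈ rrk_latt K t w := by
  intro j
  by_cases h : i = j
  · exact ⟨1, by simp [h]⟩
  · exact ⟨0, by simp [h]⟩

theorem rrk_sum_mem_latt (P : ι → K[X]) : ∑ i, aeval t (P i) • w i ∈ rrk_latt K t w :=
  sum_mem fun i _ => rrk_latt_smul_mem (rrk_basis_mem_latt i) (P i)

theorem rrk_exists_of_mem_latt {f : F} (hf : f ∈ rrk_latt K t w) :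
    ∃ P : ι → K[X], f = ∑ i, aeval t (P i) • w i := by
  choose P hP using hf
  refine ⟨P, ?_⟩
  conv_lhs => rw [← w.sum_repr f]
  exact Finset.sum_congr rfl fun i _ => by rw [hP i]

theorem rrk_latt_le_of_mem (h : ∀ i, w' i ∈ rrk_latt K t w) :
    rrk_latt K t w' ≤ rrk_latt K t w := by
  intro f hf
  obtain ⟨P, rfl⟩ := rrk_exists_of_mem_latt hf
  exact sum_mem fun i _ => rrk_latt_smul_mem (h i) (P i)

theorem rrk_latt_eq_of_mem (h : ∀ i, w' i ∈ rrk_latt K t w) (h' : ∀ i, w i ∈ rrk_latt K t w') :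
    rrk_latt K t w' = rrk_latt K t w :=
  le_antisymm (rrk_latt_le_of_mem h) (rrk_latt_le_of_mem h')

theorem rrk_repr_sum (r : ι → Q) (i : ι) : w.repr (∑ j, r j • w j) i = r i := by
  simp [map_sum, Finsupp.single_apply, Finset.sum_apply']

end latt

section bound

variable {K Q F : Type*} [Field K] [Field Q] [Algebra K Q] [AddCommGroup F] [Module Q F]
  [Module K F] [IsScalarTower K Q F]
variable {ι : Type*} [Fintype ι] [DecidableEq ι]
variable {t : Q} {d : Q → ℤ} {ν : F → ℤ}

/-- the powers of `t` applied to a nonzero vector are linearly independent over `K` -/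
theorem rrk_linearIndependent_pow_smul (hd : rrk_IsDeg K t d) {f : F} (hf : f ≠ 0) :
    LinearIndependent K (fun n : ℕ => t ^ n • f) := by
  let T : F →ₗ[K] F := (LinearMap.lsmul Q F t).restrictScalars K
  have hT : ∀ (n : ℕ) (g : F), (T ^ n) g = t ^ n • g := by
    intro n
    induction n with
    | zero => intro g; simp
    | succ n ih =>
      intro g
      rw [pow_succ, Module.End.mul_apply, ih]
      show t ^ n • (t • g) = _
      rw [smul_smul, pow_succ]
  have haev : ∀ (p : K[X]) (g : F), aeval T p g = aeval t p • g := by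
    intro p g
    rw [aeval_endomorphism, aeval_def, eval₂_eq_sum, Polynomial.sum, Polynomial.sum,
      Finset.sum_smul]
    refine Finset.sum_congr rfl fun n _ => ?_
    rw [hT, mul_smul, algebraMap_smul]
  have key := (linearIndependent_powers_iff_aeval T f).mpr (by
    intro p hp
    rw [haev] at hp
    rcases smul_eq_zero.mp hp with h | h
    · by_contra hne
      exact hd.aeval_ne_zero hne h
    · exact absurd h hf)
  have hfun : (fun n : ℕ => (T ^ n) f) = fun n : ℕ => t ^ n • f := funext fun n => hT n f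
  rwa [hfun] at key

/-- on a lattice whose part of norm `≤ 0` is finite dimensional the norm is bounded below -/
theorem rrk_lower_bound (hd : rrk_IsDeg K t d) (hν : rrk_IsNorm d ν) (u : Basis ι Q F)
    (L₀ : Submodule K F) (hL₀ : ∀ f, f ∈ L₀ ↔ f ∈ rrk_latt K t u ∧ rrk_le ν 0 f)
    [FiniteDimensional K L₀] {f : F} (hf : f ∈ rrk_latt K t u) (hf0 : f ≠ 0) :
    -(finrank K L₀ : ℤ) ≤ ν f := by
  by_contra hlt
  push Not at hlt
  set B := finrank K L₀ with hB
  have hmem : ∀ i : Fin (B + 1), t ^ (i : ℕ) • f ∈ L₀ := by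
    intro i
    rw [hL₀]
    refine ⟨?_, Or.inr ?_⟩
    · have := rrk_latt_smul_mem hf (X ^ (i : ℕ) : K[X])
      rwa [map_pow, aeval_X] at this
    · rw [hν.smul _ _ (pow_ne_zero _ hd.gen_ne) hf0, hd.pow]
      have := i.2
      omega
  let v : Fin (B + 1) → L₀ := fun i => ⟨t ^ (i : ℕ) • f, hmem i⟩
  have hli : LinearIndependent K v := by
    apply LinearIndependent.of_comp L₀.subtype
    have := (rrk_linearIndependent_pow_smul hd hf0).comp (fun i : Fin (B + 1) => (i : ℕ))
      Fin.val_injective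
    exact this
  have := hli.fintype_card_le_finrank
  rw [Fintype.card_fin] at this
  omega

end bound

section reduced

variable {K Q F : Type*} [Field K] [Field Q] [Algebra K Q] [AddCommGroup F] [Module Q F]
variable {ι : Type*} [Fintype ι] [DecidableEq ι]
variable {t : Q} {d : Q → ℤ} {ν : F → ℤ}

/-- `w` is a reduced basis (polynomial coefficients): no cancellation of leading terms -/
def rrk_IsRed (K : Type*) {Q F ι : Type*} [Field K] [Field Q] [Algebra K Q] [AddCommGroup F]
    [Module Q F] [Fintype ι] (t : Q) (ν : F → ℤ) (w : Basis ι Q F) : Prop :=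
  ∀ (P : ι → K[X]) (k : ℤ), rrk_le ν k (∑ i, aeval t (P i) • w i) →
    ∀ i, P i = 0 ∨ ((P i).natDegree : ℤ) + ν (w i) ≤ k

/-- replacing one vector of a basis by a vector with a nonzero coordinate there -/
theorem rrk_exists_update (w : Basis ι Q F) (j : ι) (a : ι → Q) (haj : a j ≠ 0) :
    ∃ w' : Basis ι Q F, (w' : ι → F) = Function.update w j (∑ i, a i • w i) := by
  set v := ∑ i, a i • w i with hv
  have hvdec : v = a j • w j + ∑ i ∈ Finset.univ.erase j, a i • w i := by
    rw [hv]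
    exact (Finset.add_sum_erase Finset.univ (fun i => a i • w i) (Finset.mem_univ j)).symm
  have hspan : ⊤ ≤ Submodule.span Q (Set.range (Function.update (w : ι → F) j v)) := by
    rw [← w.span_eq, Submodule.span_le]
    rintro _ ⟨i, rfl⟩
    have hne : ∀ i, i ≠ j → w i ∈ Submodule.span Q (Set.range (Function.update (w : ι → F) j v)) := by
      intro i hi
      apply Submodule.subset_span
      exact ⟨i, by rw [Function.update_of_ne hi]⟩
    by_cases hij : i = j
    · subst hij
      have hvm : v ∈ Submodule.span Q (Set.range (Function.update (w : ι → F) i v)) := by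
        apply Submodule.subset_span
        exact ⟨i, by rw [Function.update_self]⟩
      have : w i = (a i)⁻¹ • (v - ∑ l ∈ Finset.univ.erase i, a l • w l) := by
        rw [hvdec, add_sub_cancel_right, smul_smul, inv_mul_cancel₀ haj, one_smul]
      rw [SetLike.mem_coe, this]
      refine Submodule.smul_mem _ _ (Submodule.sub_mem _ hvm (Submodule.sum_mem _ fun l hl => ?_))
      exact Submodule.smul_mem _ _ (hne l (Finset.ne_of_mem_erase hl))
    · exact hne i hij
  refine ⟨basisOfTopLeSpanOfCardEqFinrank _ hspan (Module.finrank_eq_card_basis w).symm, ?_⟩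
  rw [coe_basisOfTopLeSpanOfCardEqFinrank]

/-- **the exchange step**: a non-reduced basis can be improved. -/
theorem rrk_improve (hd : rrk_IsDeg K t d) (hν : rrk_IsNorm d ν) (w : Basis ι Q F)
    (hnot : ¬ rrk_IsRed K t ν w) :
    ∃ w' : Basis ι Q F, rrk_latt K t w' = rrk_latt K t w ∧ ∑ i, ν (w' i) < ∑ i, ν (w i) := by
  classical
  unfold rrk_IsRed at hnot
  push Not at hnot
  obtain ⟨P, k, hle, i₀, hP0, hk⟩ := hnot
  -- the maximal weight `μ`
  set m : ι → ℤ := fun i => ((P i).natDegree : ℤ) + ν (w i) with hm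
  set T : Finset ι := Finset.univ.filter (fun i => P i ≠ 0) with hT
  have hi₀T : i₀ ∈ T := by simp [hT, hP0]
  obtain ⟨j₀, hj₀T, hj₀max⟩ := Finset.exists_max_image T m ⟨i₀, hi₀T⟩
  set μ := m j₀ with hμ
  have hkμ : k < μ := lt_of_lt_of_le hk (hj₀max i₀ hi₀T)
  set S : Finset ι := T.filter (fun i => m i = μ) with hS
  have hj₀S : j₀ ∈ S := by
    rw [hS, Finset.mem_filter]; exact ⟨hj₀T, rfl⟩
  obtain ⟨j, hjS, hjmax⟩ := Finset.exists_max_image S (fun i => ν (w i)) ⟨j₀, hj₀S⟩
  have hST : ∀ i ∈ S, P i ≠ 0 ∧ m i = μ := by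
    intro i hi
    rw [hS, Finset.mem_filter, hT, Finset.mem_filter] at hi
    exact ⟨hi.1.2, hi.2⟩
  have hdeg : ∀ i ∈ S, (P j).natDegree ≤ (P i).natDegree := by
    intro i hi
    have h1 := (hST i hi).2
    have h2 := (hST j hjS).2
    have h3 := hjmax i hi
    simp only [hm] at h1 h2
    omega
  -- the new vector
  set A : ι → K[X] := fun i =>
    if i ∈ S then C (P i).leadingCoeff * X ^ ((P i).natDegree - (P j).natDegree) else 0 with hA
  set v : F := ∑ i, aeval t (A i) • w i with hv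
  have hAj : A j = C (P j).leadingCoeff := by
    simp [hA, hjS]
  have hlcj : (P j).leadingCoeff ≠ 0 := leadingCoeff_ne_zero.mpr (hST j hjS).1
  have haj : aeval t (A j) ≠ 0 := by
    rw [hAj, aeval_C, Ne, map_eq_zero]; exact hlcj
  have hv0 : v ≠ 0 := by
    intro h0
    have := rrk_repr_sum (w := w) (fun i => aeval t (A i)) j
    rw [← hv, h0, map_zero, Finsupp.zero_apply] at this
    exact haj this.symm
  have hvlatt : v ∈ rrk_latt K t w := rrk_sum_mem_latt A
  -- `X ^ m_j * A i`
  set P' : ι → K[X] := fun i => if i ∈ S then (P i).eraseLead else P i with hP'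
  have hPA : ∀ i, P i - X ^ (P j).natDegree * A i = P' i := by
    intro i
    by_cases hi : i ∈ S
    · simp only [hA, hP', if_pos hi]
      rw [mul_left_comm, ← pow_add, Nat.add_sub_cancel' (hdeg i hi), self_sub_C_mul_X_pow]
    · simp only [hA, hP', if_neg hi, mul_zero, sub_zero]
  have hdiff : t ^ (P j).natDegree • v =
      ∑ i, aeval t (P i) • w i - ∑ i, aeval t (P' i) • w i := by
    rw [← Finset.sum_sub_distrib, hv, Finset.smul_sum]
    refine Finset.sum_congr rfl fun i _ => ?_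
    rw [← sub_smul, ← map_sub, ← hPA i, smul_smul]
    congr 1
    rw [sub_sub_cancel, map_mul, map_pow, aeval_X]
  have hterm : ∀ i, rrk_le ν (μ - 1) (aeval t (P' i) • w i) := by
    intro i
    by_cases hP'0 : P' i = 0
    · rw [hP'0, map_zero, zero_smul]; exact rrk_le_zero _
    have hwi : rrk_le ν (ν (w i)) (w i) := rrk_le_self _
    refine (hwi.smul_aeval hd hν (P' i)).mono ?_
    by_cases hi : i ∈ S
    · have h1 := (hST i hi).2
      simp only [hP', if_pos hi] at hP'0 ⊢
      rcases eraseLead_natDegree_lt_or_eraseLead_eq_zero (P i) with h2 | h2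
      · simp only [hm] at h1
        omega
      · exact absurd h2 hP'0
    · simp only [hP', if_neg hi] at hP'0 ⊢
      have hiT : i ∈ T := by simp [hT, hP'0]
      have h1 := hj₀max i hiT
      have h2 : m i ≠ μ := fun h => hi (by simp [hS, hiT, h])
      have h3 : m i < μ := lt_of_le_of_ne h1 h2
      simp only [hm] at h3
      omega
  have htv : rrk_le ν (μ - 1) (t ^ (P j).natDegree • v) := by
    rw [hdiff]
    exact (hle.mono (by omega)).sub hd hν (rrk_le.sum hν _ _ fun i _ => hterm i)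
  have hνv : ν v ≤ ν (w j) - 1 := by
    have htv0 : t ^ (P j).natDegree • v ≠ 0 :=
      smul_ne_zero (pow_ne_zero _ hd.gen_ne) hv0
    have h1 := htv.le htv0
    rw [hν.smul _ _ (pow_ne_zero _ hd.gen_ne) hv0, hd.pow] at h1
    have h2 := (hST j hjS).2
    simp only [hm] at h2
    omega
  -- the new basis
  obtain ⟨w', hw'⟩ := rrk_exists_update w j (fun i => aeval t (A i)) haj
  rw [← hv] at hw'
  have hw'j : w' j = v := by rw [hw', Function.update_self]
  have hw'ne : ∀ i, i ≠ j → w' i = w i := fun i hi => by rw [hw', Function.update_of_ne hi]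
  refine ⟨w', rrk_latt_eq_of_mem ?_ ?_, ?_⟩
  · intro i
    by_cases hi : i = j
    · rw [hi, hw'j]; exact hvlatt
    · rw [hw'ne i hi]; exact rrk_basis_mem_latt i
  · intro i
    by_cases hi : i = j
    · have hvdec : v = aeval t (A j) • w j + ∑ l ∈ Finset.univ.erase j, aeval t (A l) • w l := by
        rw [hv]
        exact (Finset.add_sum_erase Finset.univ (fun i => aeval t (A i) • w i)
          (Finset.mem_univ j)).symm
      have hwj : w j = aeval t (C (P j).leadingCoeff⁻¹ : K[X]) •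
          (w' j - ∑ l ∈ Finset.univ.erase j, aeval t (A l) • w' l) := by
        have hsum : ∑ l ∈ Finset.univ.erase j, aeval t (A l) • w' l =
            ∑ l ∈ Finset.univ.erase j, aeval t (A l) • w l :=
          Finset.sum_congr rfl fun l hl => by rw [hw'ne l (Finset.ne_of_mem_erase hl)]
        rw [hsum, hw'j, hvdec, add_sub_cancel_right, smul_smul, hAj, ← map_mul, ← C_mul,
          inv_mul_cancel₀ hlcj, C_1, map_one, one_smul]
      rw [hi, hwj]
      refine rrk_latt_smul_mem (sub_mem (rrk_basis_mem_latt j) (sum_mem fun l _ => ?_)) _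
      exact rrk_latt_smul_mem (rrk_basis_mem_latt l) _
    · rw [← hw'ne i hi]; exact rrk_basis_mem_latt i
  · have h1 : ∑ i, ν (w' i) = ν v + ∑ i ∈ Finset.univ.erase j, ν (w i) := by
      rw [← Finset.add_sum_erase Finset.univ (fun i => ν (w' i)) (Finset.mem_univ j), hw'j]
      congr 1
      exact Finset.sum_congr rfl fun l hl => by rw [hw'ne l (Finset.ne_of_mem_erase hl)]
    have h2 : ∑ i, ν (w i) = ν (w j) + ∑ i ∈ Finset.univ.erase j, ν (w i) :=
      (Finset.add_sum_erase Finset.univ (fun i => ν (w i)) (Finset.mem_univ j)).symm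
    rw [h1, h2]
    omega

/-- **existence of a reduced basis** of a lattice whose part of norm `≤ 0` is finite
dimensional. -/
theorem rrk_exists_reduced [Module K F] [IsScalarTower K Q F] (hd : rrk_IsDeg K t d)
    (hν : rrk_IsNorm d ν) (u : Basis ι Q F) (L₀ : Submodule K F)
    (hL₀ : ∀ f, f ∈ L₀ ↔ f ∈ rrk_latt K t u ∧ rrk_le ν 0 f) [FiniteDimensional K L₀] :
    ∃ w : Basis ι Q F, rrk_latt K t w = rrk_latt K t u ∧ rrk_IsRed K t ν w := by
  let Pr : ℤ → Prop := fun z => ∃ w : Basis ι Q F, rrk_latt K t w = rrk_latt K t u ∧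
    ∑ i, ν (w i) = z
  have hbdd : ∃ b : ℤ, ∀ z, Pr z → b ≤ z := by
    refine ⟨∑ _i : ι, -(finrank K L₀ : ℤ), ?_⟩
    rintro z ⟨w, hw, rfl⟩
    refine Finset.sum_le_sum fun i _ => ?_
    have hmem : w i ∈ rrk_latt K t u := hw ▸ rrk_basis_mem_latt i
    exact rrk_lower_bound hd hν u L₀ hL₀ hmem (w.ne_zero i)
  obtain ⟨z₀, ⟨w₀, hw₀, hz₀⟩, hmin⟩ := Int.exists_least_of_bdd hbdd ⟨_, u, rfl, rfl⟩
  refine ⟨w₀, hw₀, ?_⟩
  by_contra hnot
  obtain ⟨w', hw', hlt⟩ := rrk_improve hd hν w₀ hnot
  have := hmin _ ⟨w', hw'.trans hw₀, rfl⟩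
  omega

/-- `w` is reduced with weights `b` (coefficients in `Q`) -/
def rrk_IsRedW {Q F ι : Type*} [Field Q] [AddCommGroup F] [Module Q F] [Fintype ι]
    (d : Q → ℤ) (ν : F → ℤ) (w : Basis ι Q F) (b : ι → ℤ) : Prop :=
  ∀ (r : ι → Q) (k : ℤ), rrk_le ν k (∑ i, r i • w i) ↔ ∀ i, r i = 0 ∨ d (r i) + b i ≤ k

theorem rrk_IsRed.redW (hd : rrk_IsDeg K t d) (hν : rrk_IsNorm d ν) {w : Basis ι Q F}
    (hred : rrk_IsRed K t ν w) : rrk_IsRedW d ν w (fun i => ν (w i)) := by
  classical
  intro r k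
  constructor
  · intro hle i
    by_cases hri : r i = 0
    · exact Or.inl hri
    right
    -- clear denominators
    choose q hq0 p hp using hd.frac
    set qq : K[X] := ∏ l, q (r l) with hqq
    have hqq0 : qq ≠ 0 := Finset.prod_ne_zero_iff.mpr fun l _ => hq0 (r l)
    set P : ι → K[X] := fun l => p (r l) * ∏ l' ∈ Finset.univ.erase l, q (r l') with hP
    have hPl : ∀ l, aeval t (P l) = r l * aeval t qq := by
      intro l
      rw [hP, hqq, ← Finset.mul_prod_erase Finset.univ (fun l' => q (r l')) (Finset.mem_univ l),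
        map_mul, map_mul, ← hp (r l), mul_assoc]
    have hsum : ∑ l, aeval t (P l) • w l = aeval t qq • ∑ l, r l • w l := by
      rw [Finset.smul_sum]
      refine Finset.sum_congr rfl fun l _ => ?_
      rw [hPl, smul_smul, mul_comm]
    have h1 := hle.smul_aeval hd hν qq
    rw [← hsum] at h1
    have h2 := hred P _ h1 i
    have hqq1 : aeval t qq ≠ 0 := hd.aeval_ne_zero hqq0
    have hPi0 : P i ≠ 0 := by
      intro h0
      have := hPl i
      rw [h0, map_zero] at this
      exact mul_ne_zero hri hqq1 this.symm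
    have h3 := h2.resolve_left hPi0
    have h4 : d (aeval t (P i)) = d (r i) + qq.natDegree := by
      rw [hPl, hd.mul _ _ hri hqq1, hd.d_aeval hqq0]
    rw [hd.d_aeval hPi0] at h4
    show d (r i) + ν (w i) ≤ k
    omega
  · intro h
    refine rrk_le.sum hν _ _ fun i _ => ?_
    have h1 : r i = 0 ∨ d (r i) ≤ k - ν (w i) := (h i).imp id fun h' => by
      have h'' : d (r i) + ν (w i) ≤ k := h'
      omega
    have := (rrk_le_self (ν := ν) (w i)).smul hν h1
    rwa [sub_add_cancel] at this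

end reduced

section dimension

variable {K Q F : Type*} [Field K] [Field Q] [Algebra K Q] [AddCommGroup F] [Module Q F]
  [Module K F] [IsScalarTower K Q F]
variable {ι : Type*} [Fintype ι] [DecidableEq ι]
variable {t : Q} {d : Q → ℤ} {ν : F → ℤ}

theorem rrk_finrank_degreeLT (n : ℕ) : finrank K (degreeLT K n) = n := by
  rw [(degreeLTEquiv K n).finrank_eq, Module.finrank_fin_fun]

/-- the parametrisation of the part of norm `≤ k` of a lattice with a reduced basis -/
noncomputable def rrk_param (K : Type*) {Q F ι : Type*} [Field K] [Field Q] [Algebra K Q]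
    [AddCommGroup F] [Module Q F] [Module K F] [IsScalarTower K Q F] [Fintype ι]
    (t : Q) (w : Basis ι Q F) (n : ι → ℕ) : (∀ i, degreeLT K (n i)) →ₗ[K] F where
  toFun P := ∑ i, aeval t (P i : K[X]) • w i
  map_add' P P' := by
    rw [← Finset.sum_add_distrib]
    refine Finset.sum_congr rfl fun i _ => ?_
    rw [Pi.add_apply, Submodule.coe_add, map_add, add_smul]
  map_smul' c P := by
    rw [RingHom.id_apply, Finset.smul_sum]
    refine Finset.sum_congr rfl fun i _ => ?_
    rw [Pi.smul_apply, Submodule.coe_smul, map_smul, smul_assoc]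

theorem rrk_param_apply (w : Basis ι Q F) (n : ι → ℕ) (P : ∀ i, degreeLT K (n i)) :
    rrk_param K t w n P = ∑ i, aeval t (P i : K[X]) • w i := rfl

theorem rrk_param_injective (hd : rrk_IsDeg K t d) (w : Basis ι Q F) (n : ι → ℕ) :
    Function.Injective (rrk_param K t w n) := by
  rw [injective_iff_map_eq_zero]
  intro P hP
  funext i
  have := rrk_repr_sum (w := w) (fun i => aeval t (P i : K[X])) i
  rw [← rrk_param_apply, hP, map_zero, Finsupp.zero_apply] at this
  have h0 : (P i : K[X]) = 0 := hd.aeval_injective (by rw [← this, map_zero])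
  exact Subtype.ext h0

/-- **the dimension formula** for a lattice with a reduced basis. -/
theorem rrk_finrank_of_redW (hd : rrk_IsDeg K t d) (w : Basis ι Q F) (b : ι → ℤ)
    (hw : rrk_IsRedW d ν w b) (k : ℤ) (L : Submodule K F)
    (hL : ∀ f, f ∈ L ↔ f ∈ rrk_latt K t w ∧ rrk_le ν k f) :
    finrank K L = ∑ i, (k - b i + 1).toNat := by
  set n : ι → ℕ := fun i => (k - b i + 1).toNat with hn
  have hrange : LinearMap.range (rrk_param K t w n) = L := by
    ext f
    rw [LinearMap.mem_range, hL]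
    constructor
    · rintro ⟨P, rfl⟩
      rw [rrk_param_apply]
      refine ⟨rrk_sum_mem_latt _, (hw _ k).mpr fun i => ?_⟩
      by_cases hPi : (P i : K[X]) = 0
      · left; rw [hPi, map_zero]
      · right
        rw [hd.d_aeval hPi]
        have h1 := (P i).2
        rw [mem_degreeLT, ← natDegree_lt_iff_degree_lt hPi] at h1
        simp only [hn] at h1
        omega
    · rintro ⟨hlatt, hle⟩
      obtain ⟨P, rfl⟩ := rrk_exists_of_mem_latt hlatt
      have h1 := (hw _ k).mp hle
      have hmem : ∀ i, P i ∈ degreeLT K (n i) := by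
        intro i
        rw [mem_degreeLT]
        by_cases hPi : P i = 0
        · rw [hPi, degree_zero]; exact WithBot.bot_lt_coe _
        · rw [← natDegree_lt_iff_degree_lt hPi]
          have h2 := (h1 i).resolve_left (hd.aeval_ne_zero hPi)
          rw [hd.d_aeval hPi] at h2
          simp only [hn]
          omega
      exact ⟨fun i => ⟨P i, hmem i⟩, rfl⟩
  rw [← hrange, LinearMap.finrank_range_of_inj (rrk_param_injective hd w n),
    Module.finrank_pi_fintype]
  exact Finset.sum_congr rfl fun i _ => rrk_finrank_degreeLT (n i)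

end dimension

section duality

variable {K Q F : Type*} [Field K] [Field Q] [Algebra K Q] [AddCommGroup F] [Module Q F]
variable {ι : Type*} [Fintype ι] [DecidableEq ι]
variable {t : Q} {d : Q → ℤ} {ν ν' : F → ℤ}
variable {Φ : LinearMap.BilinForm Q F}

theorem rrk_form_sum_dual (hΦ : Φ.Nondegenerate) (hsym : Φ.IsSymm) (w : Basis ι Q F)
    (q : ι → Q) (j : ι) : Φ (w j) (∑ i, q i • Φ.dualBasis hΦ w i) = q j := by
  rw [map_sum]
  simp_rw [map_smul, smul_eq_mul, LinearMap.BilinForm.apply_dualBasis_right hΦ hsym]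
  simp

theorem rrk_form_repr_dual (hΦ : Φ.Nondegenerate) (hsym : Φ.IsSymm) (w : Basis ι Q F)
    (f : F) (j : ι) : Φ f (Φ.dualBasis hΦ w j) = w.repr f j := by
  conv_lhs => rw [← w.sum_repr f]
  rw [map_sum, LinearMap.sum_apply]
  simp_rw [map_smul, LinearMap.smul_apply, smul_eq_mul,
    LinearMap.BilinForm.apply_dualBasis_right hΦ hsym]
  simp

/-- the dual lattice is spanned by the dual basis -/
theorem rrk_latt_dual (hΦ : Φ.Nondegenerate) (hsym : Φ.IsSymm) (w : Basis ι Q F) (g : F) :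
    g ∈ rrk_latt K t (Φ.dualBasis hΦ w) ↔
      ∀ f ∈ rrk_latt K t w, ∃ p : K[X], Φ f g = aeval t p := by
  constructor
  · intro hg f hf
    obtain ⟨P, rfl⟩ := rrk_exists_of_mem_latt hf
    choose p hp using hg
    refine ⟨∑ i, P i * p i, ?_⟩
    rw [map_sum, LinearMap.sum_apply, map_sum]
    refine Finset.sum_congr rfl fun i _ => ?_
    rw [map_smul, LinearMap.smul_apply, smul_eq_mul, map_mul, ← hp i,
      LinearMap.BilinForm.dualBasis_repr_apply, hsym.eq]
  · intro h i
    obtain ⟨p, hp⟩ := h (w i) (rrk_basis_mem_latt i)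
    exact ⟨p, by rw [LinearMap.BilinForm.dualBasis_repr_apply, hsym.eq, hp]⟩

/-- **duality of reduced bases** -/
theorem rrk_dual_redW (hν' : rrk_IsNorm d ν')
    (hΦ : Φ.Nondegenerate) (hsym : Φ.IsSymm)
    (hA : ∀ f g : F, f ≠ 0 → g ≠ 0 → Φ f g ≠ 0 → d (Φ f g) + 2 ≤ ν f + ν' g)
    (hB : ∀ (g : F) (m : ℤ), g ≠ 0 →
      (∀ f : F, f ≠ 0 → Φ f g ≠ 0 → d (Φ f g) + 2 ≤ ν f + m) → ν' g ≤ m)
    (w : Basis ι Q F) (hw : rrk_IsRedW d ν w (fun i => ν (w i))) :
    rrk_IsRedW d ν' (Φ.dualBasis hΦ w) (fun i => 2 - ν (w i)) := by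
  -- the norm of the dual vectors
  have hdualle : ∀ j, ν' (Φ.dualBasis hΦ w j) ≤ 2 - ν (w j) := by
    intro j
    refine hB _ _ ((Φ.dualBasis hΦ w).ne_zero j) fun f hf hne => ?_
    rw [rrk_form_repr_dual hΦ hsym] at hne ⊢
    have h1 : rrk_le ν (ν f) (∑ i, w.repr f i • w i) := by
      rw [w.sum_repr f]; exact rrk_le_self f
    have h2 := ((hw _ _).mp h1 j).resolve_left hne
    have h3 : d (w.repr f j) + ν (w j) ≤ ν f := h2
    omega
  intro q k
  constructor
  · intro hle j
    by_cases hqj : q j = 0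
    · exact Or.inl hqj
    right
    have hform := rrk_form_sum_dual hΦ hsym w q j
    have hg0 : ∑ i, q i • Φ.dualBasis hΦ w i ≠ 0 := by
      intro h0
      rw [h0, map_zero] at hform
      exact hqj hform.symm
    have h1 := hA (w j) _ (w.ne_zero j) hg0 (by rw [hform]; exact hqj)
    rw [hform] at h1
    have h2 := hle.le hg0
    show d (q j) + (2 - ν (w j)) ≤ k
    omega
  · intro h
    refine rrk_le.sum hν' _ _ fun j _ => ?_
    have h1 : q j = 0 ∨ d (q j) ≤ k - (2 - ν (w j)) := (h j).imp id fun h' => by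
      have h'' : d (q j) + (2 - ν (w j)) ≤ k := h'
      omega
    have h2 : rrk_le ν' (2 - ν (w j)) (Φ.dualBasis hΦ w j) := Or.inr (hdualle j)
    have := h2.smul hν' h1
    rwa [sub_add_cancel] at this

end duality

section main

variable {K Q F : Type*} [Field K] [Field Q] [Algebra K Q] [AddCommGroup F] [Module Q F]
  [Module K F] [IsScalarTower K Q F]
variable {ι : Type*} [Fintype ι] [DecidableEq ι]
variable {t : Q} {d : Q → ℤ} {ν ν' : F → ℤ}
variable {Φ : LinearMap.BilinForm Q F}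

/-- **THE ABSTRACT LATTICE THEOREM** (Riemann–Roch for a pair of dual lattices over `K[t]` and at
infinity).  `c = ∑ᵢ (1 - aᵢ)`, `aᵢ` the norms of a reduced basis. -/
theorem rrk_lattice_main (hd : rrk_IsDeg K t d) (hν : rrk_IsNorm d ν) (hν' : rrk_IsNorm d ν')
    (hΦ : Φ.Nondegenerate) (hsym : Φ.IsSymm)
    (hA : ∀ f g : F, f ≠ 0 → g ≠ 0 → Φ f g ≠ 0 → d (Φ f g) + 2 ≤ ν f + ν' g)
    (hB : ∀ (g : F) (m : ℤ), g ≠ 0 →
      (∀ f : F, f ≠ 0 → Φ f g ≠ 0 → d (Φ f g) + 2 ≤ ν f + m) → ν' g ≤ m)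
    (u : Basis ι Q F) (L₀ : Submodule K F)
    (hL₀ : ∀ f, f ∈ L₀ ↔ f ∈ rrk_latt K t u ∧ rrk_le ν 0 f) [FiniteDimensional K L₀] :
    ∃ c k₀ : ℤ,
      (∀ k : ℤ, k₀ ≤ k → ∀ L : Submodule K F,
        (∀ f, f ∈ L ↔ f ∈ rrk_latt K t u ∧ rrk_le ν k f) →
          (finrank K L : ℤ) = c + Fintype.card ι * k) ∧
      (∀ L₁ : Submodule K F,
        (∀ g, g ∈ L₁ ↔ (∀ f ∈ rrk_latt K t u, ∃ p : K[X], Φ f g = aeval t p) ∧ rrk_le ν' 0 g) →
          (finrank K L₀ : ℤ) - finrank K L₁ = c) := by
  obtain ⟨w, hwu, hred⟩ := rrk_exists_reduced hd hν u L₀ hL₀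
  have hredW := hred.redW hd hν
  have hdual := rrk_dual_redW hν' hΦ hsym hA hB w hredW
  refine ⟨∑ i, (1 - ν (w i)), ∑ i, |ν (w i)|, ?_, ?_⟩
  · intro k hk L hL
    rw [rrk_finrank_of_redW hd w _ hredW k L (by rw [hwu]; exact hL), Nat.cast_sum]
    have hterm : ∀ i, ((k - ν (w i) + 1).toNat : ℤ) = (1 - ν (w i)) + k := by
      intro i
      have h1 : |ν (w i)| ≤ ∑ j, |ν (w j)| :=
        Finset.single_le_sum (f := fun j => |ν (w j)|) (fun j _ => abs_nonneg _)
          (Finset.mem_univ i)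
      have h2 := le_abs_self (ν (w i))
      rw [Int.toNat_of_nonneg (by omega)]
      ring
    rw [Finset.sum_congr rfl fun i _ => hterm i, Finset.sum_add_distrib, Finset.sum_const,
      Finset.card_univ, nsmul_eq_mul]
  · intro L₁ hL₁
    have h0 := rrk_finrank_of_redW hd w _ hredW 0 L₀ (by rw [hwu]; exact hL₀)
    have h1 := rrk_finrank_of_redW hd (Φ.dualBasis hΦ w) _ hdual 0 L₁ (by
      intro g
      rw [hL₁, rrk_latt_dual hΦ hsym w g, hwu])
    rw [h0, h1, Nat.cast_sum, Nat.cast_sum, ← Finset.sum_sub_distrib]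
    refine Finset.sum_congr rfl fun i _ => ?_
    omega

end main

end Fermat.Agent.MW
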