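/-
Project MW (S17), cell [RRK] (sub-architect helper11): RIEMANN–ROCH WITH DUALITY, canonical divisor
`div(dt)`, by the DEDEKIND–WEBER route (lattices over `K[t]` and at the poles of `t`; trace duality;
tame different exponent `e - 1`).  Generic in `(K, F)`: `K` algebraically closed of characteristic
zero, `F / K` a function field (`rt_IsSepGen K y` for some `y`).

THE SEAMS OF THE CELL (each a `def rrk_SeamXX : Prop`, generic in `(K, F)`):

* `rrk_SeamFIN`  [FIN]  THE CHART LEMMA for a separating generator `y`: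
    (a) `rrk_chartL y D = {f : ord_v f ≥ -D v at every v at which y is regular}` is the `K[y]`-span
        of a `K(y)`-basis of `F`;
    (b) its `K[y]`-dual for the trace form of `F / K(y)` is `rrk_chartL y (E - D)`, `E` a
        ramification divisor of `y` (`E v = ord_v (y - y(v)) - 1` on the chart);
    (c) the ramification of `y` is finite.
  Proof: FF/Dict (`ffd_`) + Mathlib `FractionalIdeal.dual`/`differentIdeal` + the tame different
  exponent `rrk_tame` (see the statement at the end of this header).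
* `rrk_SeamINF`  [INF]  the part at infinity for `t` (from [FIN] at `y = t⁻¹`):
    (d)  the degree function of `K(t)` seen through the poles of `t`;
    (P2) `ord_v h ≥ -(e_v - 1)` at all poles `v` of `t`  ⟹  `deg Tr h ≤ 0`;
    (P3) `deg Tr (f g) ≤ 0` for all `f` with `ord_v f ≥ -D v` at the poles of `t`
         ⟹ `ord_v g ≥ -(e_v - 1) + D v` at the poles of `t`.
* [LAT] (`MW/RRK/Lattice.lean`, Mathlib only) and [ASM] (`MW/RRK/Main.lean`): helper11.

[TAME] (Mathlib only; file `MW/RRK/Tame.lean`; consumed by [FIN] only, so no formal seam):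
  theorem rrk_tame {A B : Type*} [CommRing A] [CommRing B] [Algebra A B] [IsDedekindDomain A]
      [IsDedekindDomain B] [Module.IsTorsionFree A B] [Module.Finite A B]
      [Algebra.IsSeparable (FractionRing A) (FractionRing B)]
      (p : Ideal A) [p.IsMaximal] (hp : p ≠ ⊥) (P : Ideal B) [P.IsPrime] [P.LiesOver p]
      (hf : P.inertiaDeg A = 1) (he : ((P.ramificationIdx A : ℕ) : A ⧸ p) ≠ 0) :
      ¬ P ^ (P.ramificationIdx A) ∣ differentIdeal A B
  (with Mathlib's `pow_sub_one_dvd_differentIdeal` the exponent of `P` in the different is `e - 1`).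
  Proof: `not_dvd_differentIdeal_of_intTrace_not_mem A (P ^ e) J hPJ x hxJ hx` with
  `P ^ e * J = p.map _`, `x ∈ J`, `x ≡ 1 mod P ^ e`; the trace of `x` on `B / pB ≃ B/P^e × B/J` is
  `finrank (A/p) (B/P^e) = e` (`Algebra.trace_quotient_eq_of_isDedekindDomain`,
  `Algebra.trace_prod_apply`, `Ideal.Factors.finrank_pow_ramificationIdx`), cf. the proof of
  `not_dvd_differentIdeal_of_isCoprime_of_isSeparable`.
Prefix `rrk_`.
-/
import Fermat.Agent.JT3.Riemann.Main

set_option autoImplicit false

noncomputable section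

namespace Fermat.Agent.MW

open AlgebraicCurve IntermediateField Polynomial Module Fermat.Agent.JT3 Fermat.Agent.S24

universe u v

section defs

variable {K : Type u} {F : Type v} [Field K] [Field F] [Algebra K F]

/-- the chart module of `D` for the generator `y`: the functions satisfying the `D`-conditions at
all the places at which `y` is regular (a `K[y]`-submodule of `F`). -/
def rrk_chartL (y : F) (D : Divisor K F) : Set F :=
  {f | ∀ v : Place K F, y ∈ v.toValuationSubring → f = 0 ∨ -D v ≤ v.ord f}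

/-- `E` is a ramification divisor of `y` on the chart of `y`:
`E v = ord_v (y - y(v)) - 1 = e_v - 1`. -/
def rrk_IsRam (y : F) (E : Divisor K F) : Prop :=
  ∀ (v : Place K F) (c : K), 0 < v.ord (y - algebraMap K F c) →
    E v = v.ord (y - algebraMap K F c) - 1

/-- the polynomials in `y` inside `K(y)` -/
def rrk_IsPoly (y : F) (r : K⟮y⟯) : Prop :=
  ∃ p : K[X], r = aeval (AdjoinSimple.gen K y) p

/-- the degree of `r ∈ K(t)` seen through the poles of `t`: the integer `m` with
`ord_v r = m · ord_v t` at every pole `v` of `t` -/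
def rrk_deg (t : F) (r : K⟮t⟯) : ℤ :=
  open scoped Classical in
  if h : ∃ m : ℤ, ∀ v : Place K F, v.ord t < 0 → v.ord (algebraMap K⟮t⟯ F r) = m * v.ord t
  then h.choose else 0

end defs

variable (K : Type u) (F : Type v) [Field K] [Field F] [Algebra K F]

/-- **[FIN] the chart lemma.** -/
def rrk_SeamFIN : Prop :=
  ∀ y : F, rt_IsSepGen K y →
    -- (c) finiteness of the ramification
    {v : Place K F | ∃ c : K, 1 < v.ord (y - algebraMap K F c)}.Finite ∧
    ∀ D : Divisor K F,
      -- (a) the chart module is a free lattice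
      (∃ u : Basis (Fin (finrank K⟮y⟯ F)) K⟮y⟯ F,
        ∀ f : F, f ∈ rrk_chartL y D ↔ ∀ i, rrk_IsPoly y (u.repr f i)) ∧
      -- (b) trace duality
      ∀ E : Divisor K F, rrk_IsRam y E →
        ∀ g : F, g ∈ rrk_chartL y (E - D) ↔
          ∀ f ∈ rrk_chartL y D, rrk_IsPoly y (Algebra.trace K⟮y⟯ F (f * g))

/-- **[INF] the part at infinity.** -/
def rrk_SeamINF : Prop :=
  ∀ t : F, rt_IsSepGen K t →
    -- (d) the degree function
    (∀ r : K⟮t⟯, r ≠ 0 → ∀ v : Place K F, v.ord t < 0 →
      v.ord (algebraMap K⟮t⟯ F r) = rrk_deg t r * v.ord t) ∧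
    -- (P2)
    (∀ h : F, (∀ v : Place K F, v.ord t < 0 → h = 0 ∨ v.ord t + 1 ≤ v.ord h) →
      Algebra.trace K⟮t⟯ F h = 0 ∨ rrk_deg t (Algebra.trace K⟮t⟯ F h) ≤ 0) ∧
    -- (P3)
    (∀ (D : Divisor K F) (g : F), g ≠ 0 →
      (∀ f : F, f ≠ 0 → (∀ v : Place K F, v.ord t < 0 → -D v ≤ v.ord f) →
        Algebra.trace K⟮t⟯ F (f * g) = 0 ∨ rrk_deg t (Algebra.trace K⟮t⟯ F (f * g)) ≤ 0) →
      ∀ v : Place K F, v.ord t < 0 → v.ord t + 1 + D v ≤ v.ord g)

end Fermat.Agent.MW
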